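import Fermat.Agent.Jacobian.Lat.Ring

/-!
# The group of lattices and change of coefficients
-/

set_option autoImplicit false

noncomputable section

universe u

namespace FermatAgent.Jacobian

open scoped TensorProduct Pointwise

variable {k : Type u} [Field k] (D : CurveDatum k) {A : Type u} [CommRing A] [Algebra k A]

theorem CurveDatum.span_singleton_one :
    Submodule.span (D.RA A) {(1 : LaurentSeries A)} = 1 := Submodule.one_eq_span.symm

theorem CurveDatum.isUnit_span_singleton {x : LaurentSeries A} (hx : IsUnit x) :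
    IsUnit (Submodule.span (D.RA A) {x} : D.Sub A) := by
  obtain ⟨y, hy⟩ := hx.exists_right_inv
  exact IsUnit.of_mul_eq_one (Submodule.span (D.RA A) {y})
    (by rw [Submodule.span_mul_span, Set.singleton_mul_singleton, hy, D.span_singleton_one])

theorem CurveDatum.mul_mem_mul_singleton {M : D.Sub A} {x m : LaurentSeries A} (hm : m ∈ M) :
    m * x ∈ M * Submodule.span (D.RA A) {x} :=
  Submodule.mul_mem_mul hm (Submodule.mem_span_singleton_self x)

theorem CurveDatum.mem_mul_singleton {M : D.Sub A} {x y : LaurentSeries A} :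
    y ∈ M * Submodule.span (D.RA A) {x} ↔ ∃ m ∈ M, m * x = y := by
  rw [Submodule.mul_comm, Submodule.mem_span_singleton_mul]
  simp only [mul_comm x]

theorem CurveDatum.isLat_one : D.IsLat (1 : D.Sub A) :=
  ⟨isUnit_one, 1, 1, one_ne_zero, isUnitSeries_one, by
    rw [D.expR_one, mul_one]; exact Submodule.mem_one.2 ⟨1, map_one _⟩⟩

variable {D}

theorem CurveDatum.IsLat.mul {M M' : D.Sub A} (hM : D.IsLat M) (hM' : D.IsLat M') :
    D.IsLat (M * M') := by
  refine ⟨hM.isUnit.mul hM'.isUnit, ?_⟩
  obtain ⟨r, u, hr, hu, hm⟩ := hM.exists_mem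
  obtain ⟨r', u', hr', hu', hm'⟩ := hM'.exists_mem
  exact ⟨r * r', u * u', mul_ne_zero hr hr', hu.mul hu', by
    rw [D.expR_mul, mul_mul_mul_comm]; exact Submodule.mul_mem_mul hm hm'⟩

variable (D)

theorem CurveDatum.isLat_span_unitSeries {u : LaurentSeries A} (hu : IsUnitSeries A u) :
    D.IsLat (Submodule.span (D.RA A) {u}) :=
  ⟨D.isUnit_span_singleton (isUnitSeries_iff.1 hu).isUnit, 1, u, one_ne_zero, hu, by
    rw [D.expR_one, one_mul]; exact Submodule.mem_span_singleton_self u⟩

theorem CurveDatum.isLat_span_single (n : ℤ) :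
    D.IsLat (Submodule.span (D.RA A) {HahnSeries.single n (1 : A)}) := by
  refine ⟨D.isUnit_span_singleton (isMonicAt_single n).isUnit, ?_⟩
  obtain ⟨n₁, hn₁⟩ := D.exists_monic_below A
  obtain ⟨r, hr, hrm⟩ := hn₁ (min n₁ (n₁ + n)) (min_le_left _ _)
  obtain ⟨s, hs, hsm⟩ := hn₁ (min n₁ (n₁ + n) - n) (by omega)
  obtain ⟨y, hy, hry⟩ := hrm.exists_inv
  refine ⟨r, y * D.expR A s * HahnSeries.single n 1, hr, isUnitSeries_iff.2 ?_, ?_⟩
  · have := (hy.mul hsm).mul (isMonicAt_single (A := A) n)
    rwa [show -min n₁ (n₁ + n) + (min n₁ (n₁ + n) - n) + n = 0 by omega] at this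
  · rw [← mul_assoc, ← mul_assoc, hry, one_mul, D.expR_eq, ← D.smul_def]
    exact Submodule.smul_mem _ _ (Submodule.mem_span_singleton_self _)

variable {D}

theorem CurveDatum.IsLat.twist {M : D.Sub A} (hM : D.IsLat M) (n : ℤ) : D.IsLat (D.twist n M) :=
  hM.mul (D.isLat_span_single n)

theorem CurveDatum.twist_twist (a b : ℤ) (M : D.Sub A) :
    D.twist a (D.twist b M) = D.twist (b + a) M := by
  rw [CurveDatum.twist, CurveDatum.twist, CurveDatum.twist, mul_assoc, Submodule.span_mul_span,
    Set.singleton_mul_singleton, HahnSeries.single_mul_single, one_mul]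

theorem CurveDatum.twist_zero (M : D.Sub A) : D.twist 0 M = M := by
  rw [CurveDatum.twist, show HahnSeries.single (0 : ℤ) (1 : A) = 1 from rfl, D.span_singleton_one,
    mul_one]

theorem CurveDatum.IsLat.equiv {M M' : D.Sub A} (hM : D.IsLat M) (h : D.Equiv M M') :
    D.IsLat M' := by
  obtain ⟨u, hu, rfl⟩ := h
  exact hM.mul (D.isLat_span_unitSeries hu)

/-- A finite frame: `x = ∑ pᵢ(x) mᵢ` with `pᵢ(x) = x nᵢ` in the ring. -/
theorem CurveDatum.exists_frame {M : D.Sub A} (hM : IsUnit M) :
    ∃ (J : Type u) (_ : Fintype J) (m w : J → LaurentSeries A) (c : J → M →ₗ[D.RA A] D.RA A),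
      (∀ j, m j ∈ M) ∧ (∀ j (x : M), D.expA A (c j x) = (x : LaurentSeries A) * w j) ∧
        ∀ x : M, ∑ j, c j x • m j = (x : LaurentSeries A) := by
  classical
  obtain ⟨N, hN⟩ := hM.exists_right_inv
  have h1 : (1 : LaurentSeries A) ∈ M * N := by rw [hN]; exact Submodule.mem_one.2 ⟨1, map_one _⟩
  obtain ⟨T, T', hT, hT', h⟩ := Submodule.mem_span_mul_finite_of_mem_mul h1
  rw [← Finset.coe_mul, Submodule.mem_span_finset] at h
  obtain ⟨a, -, ha⟩ := h
  choose t ht t' ht' htt using fun z : (T * T' : Finset (LaurentSeries A)) => Finset.mem_mul.1 z.2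
  let e := LinearEquiv.ofInjective (Algebra.linearMap (D.RA A) (LaurentSeries A))
    (D.expA_injective A)
  have hmem : ∀ (z : (T * T' : Finset (LaurentSeries A))) (x : M),
      (x : LaurentSeries A) * (a z • t' z) ∈
        LinearMap.range (Algebra.linearMap (D.RA A) (LaurentSeries A)) := fun z x => by
    have : (x : LaurentSeries A) * (a z • t' z) ∈ (1 : D.Sub A) :=
      hN ▸ Submodule.mul_mem_mul x.2 (Submodule.smul_mem N _ (hT' (ht' z)))
    rwa [Submodule.one_eq_range] at this
  let mul : ((T * T' : Finset (LaurentSeries A))) → M →ₗ[D.RA A] LaurentSeries A := fun z =>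
    (LinearMap.mulRight (D.RA A) (a z • t' z)).comp M.subtype
  refine ⟨_, inferInstance, t, fun z => a z • t' z, fun z => e.symm.toLinearMap.comp
    ((mul z).codRestrict _ (hmem z)), fun z => hT (ht z), fun z x =>
      congrArg Subtype.val (e.apply_symm_apply ((mul z).codRestrict _ (hmem z) x)), fun x => ?_⟩
  have key : ∀ z, e.symm ((mul z).codRestrict _ (hmem z) x) • t z =
      (x : LaurentSeries A) * (a z • (z : LaurentSeries A)) := fun z => by
    have h2 := congrArg Subtype.val (e.apply_symm_apply ((mul z).codRestrict _ (hmem z) x))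
    change D.expA A (e.symm ((mul z).codRestrict _ (hmem z) x)) = _ at h2
    rw [D.smul_def]
    refine (congrArg (· * t z) h2).trans ?_
    show (x : LaurentSeries A) * (a z • t' z) * t z = _
    rw [mul_assoc, smul_mul_assoc, mul_comm (t' z), htt]
  show ∑ z, e.symm ((mul z).codRestrict _ (hmem z) x) • t z = _
  rw [Finset.sum_congr rfl fun z _ => key z, ← Finset.mul_sum,
    Finset.sum_coe_sort (T * T') fun z => a z • z, ha, mul_one]

theorem CurveDatum.projective_of_isUnit {M : D.Sub A} (hM : IsUnit M) :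
    Module.Projective A M := by
  classical
  obtain ⟨J, _, m, w, c, hm, -, hc⟩ := D.exists_frame hM
  let i : M →ₗ[D.RA A] (J → D.RA A) := LinearMap.pi c
  let s : (J → D.RA A) →ₗ[D.RA A] M :=
    ∑ j, LinearMap.smulRight (LinearMap.proj j) (⟨m j, hm j⟩ : M)
  have hsi : s.comp i = LinearMap.id := LinearMap.ext fun x => Subtype.ext (by
    simp only [s, i, LinearMap.comp_apply, LinearMap.coe_sum, Finset.sum_apply,
      LinearMap.smulRight_apply, LinearMap.proj_apply, LinearMap.pi_apply, Submodule.coe_sum,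
      Submodule.coe_smul, LinearMap.id_apply]
    exact hc x)
  exact Module.Projective.of_split (i.restrictScalars A) (s.restrictScalars A)
    (LinearMap.ext fun x => LinearMap.congr_fun hsi x)

section BaseChange

variable {B : Type u} [CommRing B] [Algebra k B] (f : A →ₐ[k] B)

theorem CurveDatum.subset_bc {M : D.Sub A} {x : LaurentSeries A} (hx : x ∈ M) :
    lsMap f.toRingHom x ∈ D.bc f M := Submodule.subset_span ⟨x, hx, rfl⟩

theorem CurveDatum.bc_mul (M M' : D.Sub A) : D.bc f (M * M') = D.bc f M * D.bc f M' := by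
  refine le_antisymm (Submodule.span_le.2 ?_) ?_
  · rintro _ ⟨x, hx, rfl⟩
    refine Submodule.mul_induction_on hx (fun m hm m' hm' => ?_) fun y z hy hz => ?_
    · rw [SetLike.mem_coe, map_mul]
      exact Submodule.mul_mem_mul (subset_bc f hm) (subset_bc f hm')
    · rw [SetLike.mem_coe, map_add]
      exact add_mem hy hz
  · rw [CurveDatum.bc, CurveDatum.bc, Submodule.span_mul_span]
    refine Submodule.span_le.2 ?_
    rintro _ ⟨_, ⟨m, hm, rfl⟩, _, ⟨m', hm', rfl⟩, rfl⟩
    exact Submodule.subset_span ⟨m * m', Submodule.mul_mem_mul hm hm', map_mul _ _ _⟩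

theorem CurveDatum.bc_span_singleton (x : LaurentSeries A) :
    D.bc f (Submodule.span (D.RA A) {x}) =
      Submodule.span (D.RA B) {lsMap f.toRingHom x} := by
  refine le_antisymm (Submodule.span_le.2 ?_)
    (Submodule.span_mono (Set.singleton_subset_iff.2 ⟨x, Submodule.mem_span_singleton_self x, rfl⟩))
  rintro _ ⟨y, hy, rfl⟩
  obtain ⟨p, rfl⟩ := Submodule.mem_span_singleton.1 hy
  rw [SetLike.mem_coe, D.lsMap_smul_RA]
  exact Submodule.smul_mem _ _ (Submodule.mem_span_singleton_self _)

theorem CurveDatum.bc_one : D.bc f (1 : D.Sub A) = 1 := by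
  rw [← D.span_singleton_one, bc_span_singleton, map_one, D.span_singleton_one]

theorem CurveDatum.bc_twist (n : ℤ) (M : D.Sub A) :
    D.bc f (D.twist n M) = D.twist n (D.bc f M) := by
  rw [CurveDatum.twist, bc_mul, bc_span_singleton, lsMap_single, map_one, CurveDatum.twist]

theorem CurveDatum.Equiv.bc {M M' : D.Sub A} (h : D.Equiv M M') :
    D.Equiv (D.bc f M) (D.bc f M') := by
  obtain ⟨u, hu, rfl⟩ := h
  exact ⟨_, hu.lsMap f.toRingHom, by rw [bc_mul, bc_span_singleton]⟩

theorem CurveDatum.bc_bc {E : Type u} [CommRing E] [Algebra k E] (g : B →ₐ[k] E) (M : D.Sub A) :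
    D.bc g (D.bc f M) = D.bc (g.comp f) M := by
  refine le_antisymm (Submodule.span_le.2 ?_) (Submodule.span_le.2 ?_)
  · rintro _ ⟨y, hy, rfl⟩
    induction hy using Submodule.span_induction with
    | mem z hz =>
      obtain ⟨x, hx, rfl⟩ := hz
      rw [SetLike.mem_coe, lsMap_comp]
      exact subset_bc (g.comp f) hx
    | zero => rw [SetLike.mem_coe, map_zero]; exact zero_mem _
    | add a b _ _ ha hb => rw [SetLike.mem_coe, map_add]; exact add_mem ha hb
    | smul p z _ hz =>
      rw [SetLike.mem_coe, D.lsMap_smul_RA]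
      exact Submodule.smul_mem _ _ hz
  · rintro _ ⟨x, hx, rfl⟩
    rw [SetLike.mem_coe, show (g.comp f).toRingHom = g.toRingHom.comp f.toRingHom from rfl,
      ← lsMap_comp]
    exact subset_bc g (subset_bc f hx)

theorem CurveDatum.IsLat.bc {M : D.Sub A} (hM : D.IsLat M) : D.IsLat (D.bc f M) := by
  refine ⟨?_, ?_⟩
  · obtain ⟨N, hN⟩ := hM.isUnit.exists_right_inv
    exact IsUnit.of_mul_eq_one (D.bc f N) (by rw [← bc_mul, hN, bc_one])
  · obtain ⟨r, u, hr, hu, hm⟩ := hM.exists_mem
    refine ⟨r, _, hr, hu.lsMap f.toRingHom, ?_⟩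
    rw [← D.lsMap_expR f, ← map_mul]
    exact subset_bc f hm

theorem CurveDatum.tmul_smul_mem_span {M : D.Sub A} (b : B) (r : D.R) {z : LaurentSeries B}
    (hz : z ∈ Submodule.span B (lsMap f.toRingHom '' (M : Set (LaurentSeries A)))) :
    (b ⊗ₜ[k] r : D.RA B) • z ∈
      Submodule.span B (lsMap f.toRingHom '' (M : Set (LaurentSeries A))) := by
  rw [D.smul_def, D.expA_tmul_eq, smul_mul_assoc]
  refine Submodule.smul_mem _ b ?_
  induction hz using Submodule.span_induction with
  | mem w hw =>
    obtain ⟨x, hx, rfl⟩ := hw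
    rw [← D.lsMap_expR f, ← map_mul]
    exact Submodule.subset_span
      ⟨_, by rw [D.expR_eq, ← D.smul_def]; exact Submodule.smul_mem M _ hx, rfl⟩
  | zero => rw [mul_zero]; exact zero_mem _
  | add a c _ _ ha hc => rw [mul_add]; exact add_mem ha hc
  | smul b' w _ hw => rw [mul_smul_comm]; exact Submodule.smul_mem _ b' hw

/-- The base change is spanned over `B` by the image. -/
theorem CurveDatum.exists_sum_of_mem_bc {M : D.Sub A} {y : LaurentSeries B} (hy : y ∈ D.bc f M) :
    y ∈ Submodule.span B (lsMap f.toRingHom '' (M : Set (LaurentSeries A))) := by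
  induction hy using Submodule.span_induction with
  | mem z hz => exact Submodule.subset_span hz
  | zero => exact zero_mem _
  | add a b _ _ ha hb => exact add_mem ha hb
  | smul p z _ hz =>
    induction p using TensorProduct.induction_on with
    | zero => rw [zero_smul]; exact zero_mem _
    | add p q hp hq => rw [add_smul]; exact add_mem hp hq
    | tmul b r =>
      exact tmul_smul_mem_span f b r hz

theorem CurveDatum.mem_bc_of_span {M : D.Sub A} {y : LaurentSeries B}
    (hy : y ∈ Submodule.span B (lsMap f.toRingHom '' (M : Set (LaurentSeries A)))) :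
    y ∈ D.bc f M :=
  (Submodule.span_le (p := (D.bc f M).restrictScalars B)).2 Submodule.subset_span hy

end BaseChange

end FermatAgent.Jacobian
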