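import Fermat.Agent.Jacobian.Lat.Lattice
import Fermat.Agent.Jacobian.Setup.TensorDomain
import Mathlib.RingTheory.Jacobson.Ring
import Mathlib.RingTheory.UniqueFactorizationDomain.Basic
import Mathlib.RingTheory.DedekindDomain.Ideal.Lemmas
import Mathlib.FieldTheory.IsAlgClosed.Basic

/-!
# Ideals of functions as lattices, and points
-/

set_option autoImplicit false

noncomputable section

universe u

namespace FermatAgent.Jacobian

open scoped TensorProduct Pointwise

variable {k : Type u} [Field k] (D : CurveDatum k) (A : Type u) [CommRing A] [Algebra k A]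

/-- The expansion of an ideal of functions. -/
def CurveDatum.idealLat (I : Ideal D.R) : D.Sub A :=
  Submodule.span (D.RA A) (D.expR A '' (I : Set D.R))

/-- The functions vanishing at a point. -/
def CurveDatum.pointIdeal (φ : D.R →ₐ[k] k) : D.Sub A := D.idealLat A (RingHom.ker φ)

theorem CurveDatum.expR_mem_idealLat {I : Ideal D.R} {r : D.R} (hr : r ∈ I) :
    D.expR A r ∈ D.idealLat A I := Submodule.subset_span ⟨r, hr, rfl⟩

theorem CurveDatum.idealLat_le_one (I : Ideal D.R) : D.idealLat A I ≤ 1 :=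
  Submodule.span_le.2 (by rintro _ ⟨r, -, rfl⟩; exact D.expR_mem_one A r)

theorem CurveDatum.pointIdeal_le_one (φ : D.R →ₐ[k] k) : D.pointIdeal A φ ≤ 1 :=
  D.idealLat_le_one A _

theorem CurveDatum.expR_zero : D.expR A 0 = 0 := by simp only [CurveDatum.expR, map_zero]

theorem CurveDatum.expR_add (r s : D.R) : D.expR A (r + s) = D.expR A r + D.expR A s := by
  simp only [CurveDatum.expR, map_add]

theorem CurveDatum.idealLat_span (S : Set D.R) :
    D.idealLat A (Ideal.span S) = Submodule.span (D.RA A) (D.expR A '' S) := by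
  refine le_antisymm (Submodule.span_le.2 ?_)
    (Submodule.span_mono (Set.image_mono Ideal.subset_span))
  rintro _ ⟨r, hr, rfl⟩
  induction hr using Submodule.span_induction with
  | mem x hx => exact Submodule.subset_span ⟨x, hx, rfl⟩
  | zero => rw [SetLike.mem_coe, D.expR_zero]; exact zero_mem _
  | add x y _ _ hx hy => rw [SetLike.mem_coe, D.expR_add]; exact add_mem hx hy
  | smul a x _ hx =>
    rw [SetLike.mem_coe, smul_eq_mul, D.expR_mul, D.expR_eq A a, ← D.smul_def]
    exact Submodule.smul_mem _ _ hx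

theorem CurveDatum.idealLat_span_singleton (r : D.R) :
    D.idealLat A (Ideal.span {r}) = Submodule.span (D.RA A) {D.expR A r} := by
  rw [D.idealLat_span, Set.image_singleton]

theorem CurveDatum.idealLat_top : D.idealLat A ⊤ = 1 := by
  rw [← Ideal.span_singleton_one, D.idealLat_span_singleton, D.expR_one, D.span_singleton_one]

theorem CurveDatum.idealLat_mul (I J : Ideal D.R) :
    D.idealLat A (I * J) = D.idealLat A I * D.idealLat A J := by
  refine le_antisymm (Submodule.span_le.2 ?_) ?_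
  · rintro _ ⟨r, hr, rfl⟩
    refine Submodule.mul_induction_on hr (fun a ha b hb => ?_) fun a b ha hb => ?_
    · rw [SetLike.mem_coe, D.expR_mul]
      exact Submodule.mul_mem_mul (D.expR_mem_idealLat A ha) (D.expR_mem_idealLat A hb)
    · rw [SetLike.mem_coe, D.expR_add]
      exact add_mem ha hb
  · rw [CurveDatum.idealLat, CurveDatum.idealLat, Submodule.span_mul_span]
    refine Submodule.span_le.2 ?_
    rintro _ ⟨_, ⟨a, ha, rfl⟩, _, ⟨b, hb, rfl⟩, rfl⟩
    exact Submodule.subset_span ⟨a * b, Ideal.mul_mem_mul ha hb, D.expR_mul A a b⟩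

theorem CurveDatum.isLat_idealLat {I : Ideal D.R} (hI : I ≠ ⊥) : D.IsLat (D.idealLat A I) := by
  obtain ⟨a, ha, ha0⟩ := Submodule.exists_mem_ne_zero_of_ne_bot hI
  obtain ⟨J, hJ⟩ := Ideal.dvd_iff_le.2 ((Ideal.span_singleton_le_iff_mem I).2 ha)
  obtain ⟨i, hi⟩ := D.exists_isMonicAt_expR A ha0
  refine ⟨?_, a, 1, ha0, isUnitSeries_one, by rw [mul_one]; exact D.expR_mem_idealLat A ha⟩
  have h : IsUnit (D.idealLat A I * D.idealLat A J) := by
    rw [← D.idealLat_mul, ← hJ, D.idealLat_span_singleton]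
    exact D.isUnit_span_singleton hi.isUnit
  exact (IsUnit.mul_iff.1 h).1

theorem CurveDatum.exists_nonconstant : ∃ r : D.R, r ∉ Set.range (algebraMap k D.R) := by
  obtain ⟨n₀, h⟩ := D.exists_pole
  obtain ⟨r, hr, -⟩ := h (max n₀ 1) (le_max_left _ _)
  refine ⟨r, ?_⟩
  rintro ⟨c, rfl⟩
  rw [D.exp_algebraMap, HahnSeries.C_apply, HahnSeries.coeff_single_of_ne (by omega)] at hr
  exact hr rfl

theorem CurveDatum.ker_ne_bot (φ : D.R →ₐ[k] k) : RingHom.ker φ ≠ ⊥ := by
  obtain ⟨r, hr⟩ := D.exists_nonconstant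
  refine fun h => hr ⟨φ r, ?_⟩
  have hmem : algebraMap k D.R (φ r) - r ∈ RingHom.ker φ := by
    rw [RingHom.mem_ker, map_sub, φ.commutes]
    exact sub_self _
  rw [h, Ideal.mem_bot, sub_eq_zero] at hmem
  exact hmem

theorem CurveDatum.isLat_pointIdeal (φ : D.R →ₐ[k] k) : D.IsLat (D.pointIdeal A φ) :=
  D.isLat_idealLat A (D.ker_ne_bot φ)

theorem CurveDatum.bc_idealLat {B : Type u} [CommRing B] [Algebra k B] (f : A →ₐ[k] B)
    (I : Ideal D.R) : D.bc f (D.idealLat A I) = D.idealLat B I := by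
  refine le_antisymm (Submodule.span_le.2 ?_) (Submodule.span_le.2 ?_)
  · rintro _ ⟨y, hy, rfl⟩
    induction hy using Submodule.span_induction with
    | mem z hz =>
      obtain ⟨r, hr, rfl⟩ := hz
      rw [SetLike.mem_coe, D.lsMap_expR]
      exact D.expR_mem_idealLat B hr
    | zero => rw [SetLike.mem_coe, map_zero]; exact zero_mem _
    | add a b _ _ ha hb => rw [SetLike.mem_coe, map_add]; exact add_mem ha hb
    | smul p z _ hz =>
      rw [SetLike.mem_coe, D.lsMap_smul_RA]
      exact Submodule.smul_mem _ _ hz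
  · rintro _ ⟨r, hr, rfl⟩
    rw [← D.lsMap_expR f]
    exact D.subset_bc f (D.expR_mem_idealLat A hr)

theorem CurveDatum.bc_pointIdeal {B : Type u} [CommRing B] [Algebra k B] (f : A →ₐ[k] B)
    (φ : D.R →ₐ[k] k) : D.bc f (D.pointIdeal A φ) = D.pointIdeal B φ :=
  D.bc_idealLat A f _

/-- Evaluation at a point. -/
def CurveDatum.evalA (φ : D.R →ₐ[k] k) : D.RA A →ₐ[A] A :=
  (Algebra.TensorProduct.rid k A A).toAlgHom.comp
    (Algebra.TensorProduct.map (AlgHom.id A A) φ)

@[simp] theorem CurveDatum.evalA_tmul (φ : D.R →ₐ[k] k) (a : A) (r : D.R) :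
    D.evalA A φ (a ⊗ₜ r) = φ r • a := by simp [CurveDatum.evalA]

theorem CurveDatum.expA_sub_mem (φ : D.R →ₐ[k] k) (p : D.RA A) :
    D.expA A p - D.evalA A φ p • (1 : LaurentSeries A) ∈ D.pointIdeal A φ := by
  induction p using TensorProduct.induction_on with
  | zero => simp
  | add p q hp hq => rw [map_add, map_add, add_smul, add_sub_add_comm]; exact add_mem hp hq
  | tmul a r =>
    have hr : r - algebraMap k D.R (φ r) ∈ RingHom.ker φ := by
      rw [RingHom.mem_ker, map_sub, φ.commutes]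
      exact sub_self _
    have h1 : D.expA A (a ⊗ₜ r) - D.evalA A φ (a ⊗ₜ r) • (1 : LaurentSeries A) =
        a • D.expR A (r - algebraMap k D.R (φ r)) := by
      rw [D.expR_eq, ← D.expA_smul, TensorProduct.smul_tmul', smul_eq_mul, mul_one,
        TensorProduct.tmul_sub, map_sub, Algebra.algebraMap_eq_smul_one (φ r),
        ← TensorProduct.smul_tmul, D.expA_tmul_eq A (φ r • a) 1, D.expR_one, D.evalA_tmul]
    rw [h1]
    exact Submodule.smul_of_tower_mem _ a (D.expR_mem_idealLat A hr)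

theorem CurveDatum.expA_mem_pointIdeal (φ : D.R →ₐ[k] k) {p : D.RA A}
    (hp : D.evalA A φ p = 0) : D.expA A p ∈ D.pointIdeal A φ := by
  have := D.expA_sub_mem A φ p
  rwa [hp, zero_smul, sub_zero] at this

theorem CurveDatum.exists_of_mem_pointIdeal (φ : D.R →ₐ[k] k) {x : LaurentSeries A}
    (hx : x ∈ D.pointIdeal A φ) : ∃ p, D.expA A p = x ∧ D.evalA A φ p = 0 := by
  induction hx using Submodule.span_induction with
  | mem z hz =>
    obtain ⟨r, hr, rfl⟩ := hz
    exact ⟨1 ⊗ₜ r, (D.expR_eq A r).symm, by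
      rw [D.evalA_tmul, show φ r = 0 from hr, zero_smul]⟩
  | zero => exact ⟨0, map_zero _, map_zero _⟩
  | add a b _ _ ha hb =>
    obtain ⟨p, rfl, hp⟩ := ha
    obtain ⟨q, rfl, hq⟩ := hb
    exact ⟨p + q, map_add _ _ _, by rw [map_add, hp, hq, add_zero]⟩
  | smul s a _ ha =>
    obtain ⟨p, rfl, hp⟩ := ha
    exact ⟨s * p, by rw [map_mul]; rfl, by rw [map_mul, hp, mul_zero]⟩

theorem CurveDatum.exists_point_of_isMaximal [IsAlgClosed k] (m : Ideal D.R) [m.IsMaximal] :
    ∃ φ : D.R →ₐ[k] k, RingHom.ker φ = m :=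
  exists_algHom_ker_eq m

theorem CurveDatum.exists_eval_ne_zero [IsAlgClosed k] {r : D.R} (hr : r ≠ 0) :
    ∃ φ : D.R →ₐ[k] k, φ r ≠ 0 := by
  by_contra h
  push Not at h
  exact hr (eq_zero_of_forall_algHom h)

theorem CurveDatum.exists_evalA_ne_zero [IsAlgClosed k] (K : Type u) [Field K] [Algebra k K]
    {p : D.RA K} (hp : p ≠ 0) : ∃ φ : D.R →ₐ[k] k, D.evalA K φ p ≠ 0 := by
  classical
  let b := Module.Free.chooseBasis k K
  let e := TensorProduct.equivFinsuppOfBasisLeft (M := K) (N := D.R) b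
  obtain ⟨i, hi⟩ : ∃ i, e p i ≠ 0 := by
    by_contra h
    push Not at h
    exact hp (e.injective (by rw [map_zero]; exact Finsupp.ext h))
  obtain ⟨φ, hφ⟩ := D.exists_eval_ne_zero hi
  refine ⟨φ, fun h0 => hφ ?_⟩
  have key : ∀ q : D.RA K, φ (e q i) = b.coord i (D.evalA K φ q) := fun q => by
    induction q using TensorProduct.induction_on with
    | zero => simp
    | add x y hx hy => simp only [map_add, Finsupp.add_apply, hx, hy]
    | tmul a r =>
      rw [D.evalA_tmul, map_smul, TensorProduct.equivFinsuppOfBasisLeft_apply_tmul_apply,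
        map_smul]
      simp [mul_comm]
  rw [key, h0, map_zero]

/-- Products of points exhaust the nonzero ideals. -/
theorem CurveDatum.exists_points_of_ideal [IsAlgClosed k] {I : Ideal D.R} (hI : I ≠ ⊥) :
    ∃ xs : List (D.R →ₐ[k] k), D.idealLat A I = (xs.map (D.pointIdeal A)).prod := by
  induction I using UniqueFactorizationMonoid.induction_on_prime with
  | h₁ => exact absurd rfl hI
  | h₂ I hu =>
    refine ⟨[], ?_⟩
    rw [Ideal.isUnit_iff.1 hu, D.idealLat_top, List.map_nil, List.prod_nil]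
  | h₃ I P hI0 hP ih =>
    obtain ⟨xs, hxs⟩ := ih hI0
    have := (Ideal.isPrime_of_prime hP).isMaximal hP.ne_zero
    obtain ⟨φ, hφ⟩ := D.exists_point_of_isMaximal P
    refine ⟨φ :: xs, ?_⟩
    rw [D.idealLat_mul, List.map_cons, List.prod_cons, ← hxs, CurveDatum.pointIdeal, hφ]

variable {A}

/-- Over a field every invertible submodule is a lattice. -/
theorem CurveDatum.isLat_of_isUnit_field {K : Type u} [Field K] [Algebra k K] {N : D.Sub K}
    (hN : IsUnit N) : D.IsLat N := by
  obtain ⟨y, hy, hy0⟩ := Submodule.exists_mem_ne_zero_of_ne_bot (p := N) fun h => by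
    obtain ⟨M, hM⟩ := hN.exists_right_inv
    rw [h, Submodule.bot_mul] at hM
    have h1 : (1 : LaurentSeries K) ∈ (⊥ : D.Sub K) := by
      rw [hM]; exact Submodule.mem_one.2 ⟨1, map_one _⟩
    exact one_ne_zero ((Submodule.mem_bot _).1 h1)
  have hym : IsMonicAt y y.order :=
    ⟨fun _ hi => HahnSeries.coeff_eq_zero_of_lt_order hi,
      Ne.isUnit (mt HahnSeries.coeff_order_eq_zero.1 hy0)⟩
  obtain ⟨n₁, hn₁⟩ := D.exists_monic_below K
  obtain ⟨r, hr, hrm⟩ := hn₁ (min n₁ (n₁ + y.order)) (min_le_left _ _)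
  obtain ⟨s, hs, hsm⟩ := hn₁ (min n₁ (n₁ + y.order) - y.order) (by omega)
  obtain ⟨z, hz, hrz⟩ := hrm.exists_inv
  refine ⟨hN, r, z * (D.expR K s * y), hr, isUnitSeries_iff.2 ?_, ?_⟩
  · have h := hz.mul (hsm.mul hym)
    rwa [show -min n₁ (n₁ + y.order) + (min n₁ (n₁ + y.order) - y.order + y.order) = 0 by omega]
      at h
  · rw [← mul_assoc, hrz, one_mul, D.expR_eq, ← D.smul_def]
    exact Submodule.smul_mem N _ hy

theorem CurveDatum.exists_expR_of_mem_one {x : LaurentSeries k} (hx : x ∈ (1 : D.Sub k)) :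
    ∃ r : D.R, D.expR k r = x := by
  obtain ⟨p, rfl⟩ := (D.mem_one_iff k).1 hx
  induction p using TensorProduct.induction_on with
  | zero => exact ⟨0, by rw [D.expR_zero, map_zero]⟩
  | add p q hp hq =>
    obtain ⟨r, hr⟩ := hp (Submodule.mem_one.2 ⟨p, rfl⟩)
    obtain ⟨s, hs⟩ := hq (Submodule.mem_one.2 ⟨q, rfl⟩)
    exact ⟨r + s, by rw [D.expR_add, hr, hs, map_add]⟩
  | tmul a r =>
    refine ⟨a • r, ?_⟩
    rw [D.expR_eq, TensorProduct.tmul_smul, TensorProduct.smul_tmul', smul_eq_mul, mul_one]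

/-- Over the base field a lattice inside the functions is an ideal. -/
theorem CurveDatum.exists_ideal_of_le_one {M : D.Sub k} (hM : IsUnit M) (h : M ≤ 1) :
    ∃ I : Ideal D.R, I ≠ ⊥ ∧ D.idealLat k I = M := by
  let I : Ideal D.R :=
    { carrier := {r | D.expR k r ∈ M}
      add_mem' := fun {a b} ha hb => show D.expR k (a + b) ∈ M by
        rw [D.expR_add]; exact add_mem ha hb
      zero_mem' := show D.expR k 0 ∈ M by rw [D.expR_zero]; exact zero_mem M
      smul_mem' := fun a b hb => show D.expR k (a * b) ∈ M by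
        rw [D.expR_mul, D.expR_eq k a, ← D.smul_def]; exact Submodule.smul_mem M _ hb }
  have hI : D.idealLat k I = M := by
    refine le_antisymm (Submodule.span_le.2 ?_) fun x hx => ?_
    · rintro _ ⟨r, hr, rfl⟩
      exact hr
    · obtain ⟨r, rfl⟩ := D.exists_expR_of_mem_one (h hx)
      exact D.expR_mem_idealLat k hx
  refine ⟨I, fun h0 => ?_, hI⟩
  rw [h0, CurveDatum.idealLat, Submodule.bot_coe, Set.image_singleton, D.expR_zero,
    Submodule.span_zero_singleton] at hI
  obtain ⟨N, hN⟩ := hM.exists_right_inv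
  rw [← hI, Submodule.bot_mul] at hN
  have h1 : (1 : LaurentSeries k) ∈ (⊥ : D.Sub k) := by
    rw [hN]; exact Submodule.mem_one.2 ⟨1, map_one _⟩
  exact one_ne_zero ((Submodule.mem_bot _).1 h1)

end FermatAgent.Jacobian
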