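import Fermat.Agent.Jacobian.Lat.Tensor
import Mathlib.RingTheory.Spectrum.Prime.FreeLocus
import Mathlib.RingTheory.LocalRing.Module
import Mathlib.LinearAlgebra.FiniteDimensional.Basic

/-!
# The Euler characteristic of a lattice and the open loci
-/

set_option autoImplicit false

noncomputable section

universe u

namespace FermatAgent.Jacobian

open scoped TensorProduct
open Module

variable {k : Type u} [Field k] (D : CurveDatum k) {A : Type u} [CommRing A] [Algebra k A]

/-- The coefficients in `[N, n)` of the sections at level `N`. -/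
def CurveDatum.winMap (M : D.Sub A) (N n : ℤ) : D.kerMod M N →ₗ[A] (Finset.Ico N n → A) :=
  (window N n).comp (D.kerMod M N).subtype

@[simp] theorem CurveDatum.winMap_apply (M : D.Sub A) (N n : ℤ) (x : D.kerMod M N)
    (i : Finset.Ico N n) : D.winMap M N n x i = (x : LaurentSeries A).coeff i := rfl

variable {D}

theorem CurveDatum.winMap_eq_zero_iff {M : D.Sub A} {N n : ℤ} (x : D.kerMod M N) :
    D.winMap M N n x = 0 ↔ (x : LaurentSeries A) ∈ fil A n :=
  ⟨mem_fil_of_window_eq_zero x.2.2, window_eq_zero_of_mem_fil⟩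

theorem CurveDatum.surj_iff {M : D.Sub A} {N n : ℤ} (h : D.Surj M N) (hn : N ≤ n) :
    D.Surj M n ↔ Function.Surjective (D.winMap M N n) := by
  classical
  constructor
  · intro hs v
    obtain ⟨m, hm, hmx⟩ := hs (∑ i : Finset.Ico N n, HahnSeries.single (i : ℤ) (v i))
    have hx : ∀ j : ℤ, (∑ i : Finset.Ico N n, HahnSeries.single (i : ℤ) (v i)).coeff j =
        if hj : j ∈ Finset.Ico N n then v ⟨j, hj⟩ else 0 := fun j => by
      rw [HahnSeries.coeff_sum]
      split_ifs with hj
      · rw [Finset.sum_eq_single (⟨j, hj⟩ : Finset.Ico N n)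
          (fun i _ hne => HahnSeries.coeff_single_of_ne fun e => hne (Subtype.ext e.symm))
          fun hns => absurd (Finset.mem_univ _) hns]
        exact HahnSeries.coeff_single_same _ _
      · exact Finset.sum_eq_zero fun i _ =>
          HahnSeries.coeff_single_of_ne fun e => hj (e ▸ i.2)
    have hcoef : ∀ j < n, m.coeff j = if hj : j ∈ Finset.Ico N n then v ⟨j, hj⟩ else 0 :=
      fun j hj => by
        rw [← hx]
        have := hmx j hj
        rw [HahnSeries.coeff_sub, sub_eq_zero] at this
        exact this.symm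
    refine ⟨⟨m, hm, fun j hj => ?_⟩, funext fun i => ?_⟩
    · rw [hcoef j (hj.trans_le hn), dif_neg]
      exact fun hmem => absurd (Finset.mem_Ico.1 hmem).1 (not_le.2 hj)
    · rw [winMap_apply, hcoef i (Finset.mem_Ico.1 i.2).2, dif_pos i.2]
  · intro hs x
    obtain ⟨m, hm, hmx⟩ := h x
    obtain ⟨y, hy⟩ := hs (window N n (x - m))
    refine ⟨m + y, add_mem hm y.2.1, mem_fil_of_window_eq_zero (N := N) ?_ ?_⟩
    · rw [← sub_sub]
      exact sub_mem hmx y.2.2
    · rw [← sub_sub, map_sub, sub_eq_zero]
      exact hy.symm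

theorem CurveDatum.ker_winMap {M : D.Sub A} {N n : ℤ} (hn : N ≤ n) :
    (LinearMap.ker (D.winMap M N n)).map (D.kerMod M N).subtype = D.kerMod M n := by
  ext y
  constructor
  · rintro ⟨x, hx, rfl⟩
    exact ⟨x.2.1, (winMap_eq_zero_iff x).1 hx⟩
  · intro hy
    exact ⟨⟨y, hy.1, fil_mono hn hy.2⟩, (winMap_eq_zero_iff _).2 hy.2, rfl⟩

theorem CurveDatum.compl_iff_bijective {M : D.Sub A} {N n : ℤ} (h : D.Surj M N) (hn : N ≤ n) :
    D.Compl M n ↔ Function.Bijective (D.winMap M N n) := by
  rw [CurveDatum.compl_iff, CurveDatum.surj_iff h hn, Function.Bijective, and_comm, ← ker_winMap hn,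
    ← Submodule.map_bot (D.kerMod M N).subtype,
    (Submodule.map_injective_of_injective Subtype.val_injective).eq_iff, LinearMap.ker_eq_bot]

section Field

variable {K : Type u} [Field K] [Algebra k K]

open Classical in
/-- The Euler characteristic, normalised so that a lattice without cohomology at level `n` has
characteristic `n`. -/
def CurveDatum.chi (D : CurveDatum k) (M : D.Sub K) : ℤ :=
  if h : ∃ n, D.Surj M n then (finrank K (D.kerMod M h.choose) : ℤ) + h.choose else 0

theorem CurveDatum.IsLat.finrank_add_eq {M : D.Sub K} (hM : D.IsLat M) {N n : ℤ}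
    (h : D.Surj M n) (hn : N ≤ n) :
    (finrank K (D.kerMod M N) : ℤ) + N = finrank K (D.kerMod M n) + n := by
  have hN := CurveDatum.Surj.mono h hn
  have := hM.finite_kerMod hN
  have h1 := (D.winMap M N n).finrank_range_add_finrank_ker
  rw [LinearMap.range_eq_top.2 ((CurveDatum.surj_iff hN hn).1 h), finrank_top,
    finrank_fintype_fun_eq_card, Fintype.card_coe, Int.card_Ico,
    (Submodule.equivMapOfInjective (D.kerMod M N).subtype Subtype.val_injective
      (LinearMap.ker (D.winMap M N n))).finrank_eq, CurveDatum.ker_winMap hn] at h1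
  omega

theorem CurveDatum.IsLat.chi_eq {M : D.Sub K} (hM : D.IsLat M) {n : ℤ} (h : D.Surj M n) :
    D.chi M = finrank K (D.kerMod M n) + n := by
  classical
  have hex : ∃ n, D.Surj M n := ⟨n, h⟩
  rw [CurveDatum.chi, dif_pos hex]
  rcases le_total hex.choose n with hle | hle
  · exact hM.finrank_add_eq h hle
  · exact (hM.finrank_add_eq hex.choose_spec hle).symm

theorem CurveDatum.IsLat.compl_iff_chi {M : D.Sub K} (hM : D.IsLat M) {n : ℤ} :
    D.Compl M n ↔ D.Surj M n ∧ D.chi M = n := by
  rw [CurveDatum.compl_iff]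
  refine and_congr_right fun h => ?_
  have := hM.finite_kerMod h
  rw [hM.chi_eq h, ← Submodule.finrank_eq_zero]
  omega

theorem CurveDatum.IsLat.chi_bc {M : D.Sub K} (hM : D.IsLat M) {L : Type u} [Field L]
    [Algebra k L] [Algebra K L] [IsScalarTower k K L] :
    D.chi (D.bc (IsScalarTower.toAlgHom k K L) M) = D.chi M := by
  obtain ⟨n₀, hn₀⟩ := hM.exists_surj
  have h := hn₀ n₀ le_rfl
  rw [(CurveDatum.IsLat.bc _ hM).chi_eq (CurveDatum.Surj.bc _ h), hM.chi_eq h,
    ← (D.kerModEquiv L hM.isUnit h).finrank_eq, Module.finrank_baseChange]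

end Field

variable (D)

/-- The map to the residue field at a prime. -/
def toResidue (p : PrimeSpectrum A) : A →ₐ[k] p.asIdeal.ResidueField :=
  IsScalarTower.toAlgHom k A p.asIdeal.ResidueField

/-- The fibre of a lattice at a prime. -/
def CurveDatum.fibre (M : D.Sub A) (p : PrimeSpectrum A) : D.Sub p.asIdeal.ResidueField :=
  D.bc (toResidue p) M

/-- The Euler characteristic of the fibres. -/
def CurveDatum.chiAt (M : D.Sub A) (p : PrimeSpectrum A) : ℤ := D.chi (D.fibre M p)

theorem finrank_residueField_tensor {P : Type u} [AddCommGroup P] [Module A P] [Module.Flat A P]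
    [Module.Finite A P] (p : PrimeSpectrum A) :
    finrank p.asIdeal.ResidueField (p.asIdeal.ResidueField ⊗[A] P) = rankAtStalk P p := by
  let q : PrimeSpectrum p.asIdeal.ResidueField := ⟨⊥, Ideal.isPrime_bot⟩
  have hq : q.comap (algebraMap A p.asIdeal.ResidueField) = p :=
    PrimeSpectrum.ext (by
      show Ideal.comap _ ⊥ = _
      exact Ideal.ker_algebraMap_residueField p.asIdeal)
  have h := rankAtStalk_eq_finrank_of_free (R := p.asIdeal.ResidueField)
    (M := p.asIdeal.ResidueField ⊗[A] P)
  rw [← hq]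
  have h' := congrFun h q
  rw [rankAtStalk_baseChange] at h'
  simp only [Pi.natCast_apply, Nat.cast_id] at h'
  rw [hq] at h'
  rw [hq]
  exact h'.symm

variable {D}

theorem CurveDatum.IsLat.chiAt_eq {M : D.Sub A} (hM : D.IsLat M) {N : ℤ} (h : D.Surj M N)
    (p : PrimeSpectrum A) : D.chiAt M p = rankAtStalk (D.kerMod M N) p + N := by
  have := hM.projective_kerMod h
  have := hM.finite_kerMod h
  rw [CurveDatum.chiAt, CurveDatum.fibre, (CurveDatum.IsLat.bc _ hM).chi_eq (CurveDatum.Surj.bc _ h),
    ← finrank_residueField_tensor p]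
  congr 2
  exact (D.kerModEquiv p.asIdeal.ResidueField hM.isUnit h).finrank_eq.symm

/-- The Euler characteristic is locally constant. -/
theorem CurveDatum.IsLat.isLocallyConstant_chiAt {M : D.Sub A} (hM : D.IsLat M) :
    IsLocallyConstant (D.chiAt M) := by
  obtain ⟨n₀, hn₀⟩ := hM.exists_surj
  have h := hn₀ n₀ le_rfl
  have := hM.projective_kerMod h
  have := hM.finite_kerMod h
  have := Module.finitePresentation_of_projective A (D.kerMod M n₀)
  rw [show D.chiAt M = fun p => ((rankAtStalk (D.kerMod M n₀) p : ℤ) + n₀) from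
    funext fun p => hM.chiAt_eq h p]
  exact (isLocallyConstant_rankAtStalk (R := A) (M := D.kerMod M n₀)).comp fun r : ℕ => (r : ℤ) + n₀

/-- The cokernel at level `n` computed from level `N`. -/
abbrev CurveDatum.cokerWin (D : CurveDatum k) (M : D.Sub A) (N n : ℤ) : Type u :=
  (Finset.Ico N n → A) ⧸ LinearMap.range (D.winMap M N n)

theorem CurveDatum.surj_fibre_iff {M : D.Sub A} {N n : ℤ} (h : D.Surj M N)
    (hn : N ≤ n) (p : PrimeSpectrum A) :
    D.Surj (D.fibre M p) n ↔ p ∉ Module.support A (D.cokerWin M N n) := by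
  classical
  obtain ⟨f, hf⟩ : ∃ f, toResidue (k := k) p = f := ⟨_, rfl⟩
  have hfib : D.fibre M p = D.bc f M := by rw [CurveDatum.fibre, hf]
  have hfa : ∀ a : A, f a = algebraMap A p.asIdeal.ResidueField a := fun a => by rw [← hf]; rfl
  rw [hfib]
  rw [CurveDatum.surj_iff (n := n) (CurveDatum.Surj.bc f h) hn]
  constructor
  · intro hs
    rw [mem_support_iff_nontrivial_residueField_tensorProduct, not_nontrivial_iff_subsingleton]
    let E := p.asIdeal.ResidueField ⊗[A] D.cokerWin M N n
    let δ : Finset.Ico N n → E := fun i =>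
      1 ⊗ₜ Submodule.Quotient.mk (Pi.single i (1 : A))
    let Λ : (Finset.Ico N n → p.asIdeal.ResidueField) →ₗ[p.asIdeal.ResidueField] E :=
      Fintype.linearCombination p.asIdeal.ResidueField δ
    have hΛ : ∀ t : Finset.Ico N n → A, Λ (fun i => f (t i)) =
        1 ⊗ₜ Submodule.Quotient.mk t := fun t => by
      rw [Fintype.linearCombination_apply]
      conv_rhs => rw [pi_eq_sum_univ' t, ← Submodule.mkQ_apply, map_sum, TensorProduct.tmul_sum]
      refine Finset.sum_congr rfl fun i _ => ?_
      rw [map_smul, TensorProduct.tmul_smul, ← algebraMap_smul p.asIdeal.ResidueField (t i), hfa]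
      rfl
    have hker : ∀ x : D.kerMod (D.bc f M) N, Λ (D.winMap (D.bc f M) N n x) = 0 := by
      rintro ⟨x, hx⟩
      show Λ (window N n x) = 0
      have hx' := hx
      rw [D.kerMod_bc f h] at hx'
      clear hx
      induction hx' using Submodule.span_induction with
      | mem y hy =>
        obtain ⟨z, hz, rfl⟩ := hy
        refine (hΛ fun i => z.coeff i).trans ?_
        rw [show (Submodule.Quotient.mk (fun i : Finset.Ico N n => z.coeff i) : D.cokerWin M N n) = 0
          from (Submodule.Quotient.mk_eq_zero _).2 ⟨⟨z, hz⟩, rfl⟩, TensorProduct.tmul_zero]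
      | zero => rw [map_zero, map_zero]
      | add a b _ _ ha hb => rw [map_add, map_add, ha, hb, add_zero]
      | smul c a _ ha => rw [map_smul, map_smul, ha, smul_zero]
    refine subsingleton_of_forall_eq 0 fun z => ?_
    induction z using TensorProduct.induction_on with
    | zero => rfl
    | add a b ha hb => rw [ha, hb, add_zero]
    | tmul a q =>
      obtain ⟨t, rfl⟩ := Submodule.Quotient.mk_surjective _ q
      obtain ⟨x, hx⟩ := hs fun i => f (t i)
      rw [← mul_one a, ← smul_eq_mul, ← TensorProduct.smul_tmul', ← hΛ, ← hx, hker, smul_zero]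
  · intro hp v
    rw [notMem_support_iff'] at hp
    have hpre : ∀ i : Finset.Ico N n, ∃ x : D.kerMod (D.bc f M) N,
        D.winMap (D.bc f M) N n x = Pi.single i 1 := fun i => by
      obtain ⟨g, hg, hg'⟩ := hp (Submodule.Quotient.mk (Pi.single i (1 : A)))
      rw [← Submodule.Quotient.mk_smul, Submodule.Quotient.mk_eq_zero] at hg'
      obtain ⟨x, hx⟩ := hg'
      have hu : f g ≠ 0 := fun h0 => hg (Ideal.algebraMap_residueField_eq_zero.1 ((hfa g).symm.trans h0))
      refine ⟨(f g)⁻¹ • ⟨lsMap f.toRingHom x, D.subset_bc f x.2.1, lsMap_mem_fil _ x.2.2⟩,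
        funext fun j => ?_⟩
      have hxj : (x : LaurentSeries A).coeff j =
          g * (Pi.single i (1 : A) : Finset.Ico N n → A) j := congrFun hx j
      rw [winMap_apply, Submodule.coe_smul, coeff_smul_fil, coeff_lsMap, hxj]
      show (f g)⁻¹ * f (g * (Pi.single i (1 : A) : Finset.Ico N n → A) j) = _
      rw [map_mul, inv_mul_cancel_left₀ hu, Pi.single_apply, Pi.single_apply, apply_ite f, map_one,
        map_zero]
    choose x hx using hpre
    exact ⟨∑ i, v i • x i, by simp only [map_sum, map_smul, hx]; exact (pi_eq_sum_univ' v).symm⟩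

/-- The locus where the fibre is complementary at level `n` is open. -/
theorem CurveDatum.IsLat.isOpen_compl {M : D.Sub A} (hM : D.IsLat M) (n : ℤ) :
    IsOpen {p : PrimeSpectrum A | D.Compl (D.fibre M p) n} := by
  obtain ⟨n₀, hn₀⟩ := hM.exists_surj
  have h := hn₀ (min n₀ n) (min_le_left _ _)
  have : {p : PrimeSpectrum A | D.Compl (D.fibre M p) n} =
      (Module.support A (D.cokerWin M (min n₀ n) n))ᶜ ∩ D.chiAt M ⁻¹' {n} := by
    ext p
    rw [Set.mem_ofPred_eq, CurveDatum.fibre, (CurveDatum.IsLat.bc _ hM).compl_iff_chi,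
      Set.mem_inter_iff, Set.mem_compl_iff, ← surj_fibre_iff h (min_le_right _ _)]
    rfl
  rw [this]
  exact (Module.support_eq_zeroLocus (R := A) (M := D.cokerWin M (min n₀ n) n) ▸
    PrimeSpectrum.isClosed_zeroLocus _).isOpen_compl.inter (hM.isLocallyConstant_chiAt _)

/-- Surjectivity can be tested on the fibres. -/
theorem CurveDatum.IsLat.surj_of_forall {M : D.Sub A} (hM : D.IsLat M) {n : ℤ}
    (hp : ∀ p : PrimeSpectrum A, D.Surj (D.fibre M p) n) : D.Surj M n := by
  obtain ⟨n₀, hn₀⟩ := hM.exists_surj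
  have h := hn₀ (min n₀ n) (min_le_left _ _)
  rw [CurveDatum.surj_iff h (min_le_right _ _), ← LinearMap.range_eq_top,
    ← Submodule.Quotient.subsingleton_iff, ← Module.support_eq_empty_iff (R := A)]
  exact Set.eq_empty_iff_forall_notMem.2 fun p => (surj_fibre_iff h (min_le_right _ _) p).1 (hp p)

/-- Complementarity can be tested on the fibres. -/
theorem CurveDatum.IsLat.compl_of_forall {M : D.Sub A} (hM : D.IsLat M) {n : ℤ}
    (hp : ∀ p : PrimeSpectrum A, D.Compl (D.fibre M p) n) : D.Compl M n := by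
  have h := hM.surj_of_forall fun p => (hp p).1
  have := hM.projective_kerMod h
  have := hM.finite_kerMod h
  have := Module.finitePresentation_of_projective A (D.kerMod M n)
  refine CurveDatum.compl_iff.2 ⟨h, ?_⟩
  rw [← Submodule.subsingleton_iff_eq_bot, ← rankAtStalk_eq_zero_iff_subsingleton (R := A)]
  funext p
  have h1 := hM.chiAt_eq h p
  rw [CurveDatum.chiAt, CurveDatum.fibre, ((CurveDatum.IsLat.bc _ hM).compl_iff_chi.1 (hp p)).2] at h1
  simp only [Pi.zero_apply]
  omega

theorem CurveDatum.Compl.bc {M : D.Sub A} {n : ℤ} (h : D.Compl M n) {B : Type u} [CommRing B]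
    [Algebra k B] (f : A →ₐ[k] B) : D.Compl (D.bc f M) n := by
  rw [CurveDatum.compl_iff] at h ⊢
  refine ⟨CurveDatum.Surj.bc f h.1, ?_⟩
  rw [D.kerMod_bc f h.1, h.2]
  simp

end FermatAgent.Jacobian
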