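import Fermat.Agent.Jacobian.Lat.Field
import Mathlib.RingTheory.Artinian.Module

/-!
# The Euler characteristic of a product of lattices
-/

set_option autoImplicit false

noncomputable section

universe u

namespace FermatAgent.Jacobian

open scoped TensorProduct
open Module

variable {k : Type u} [Field k] {D : CurveDatum k}

/-- The functions whose expansion lies in a submodule. -/
def CurveDatum.idealOf {A : Type u} [CommRing A] [Algebra k A] (N : D.Sub A) : Ideal (D.RA A) :=
  N.comap (Algebra.linearMap (D.RA A) (LaurentSeries A))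

theorem CurveDatum.mem_idealOf {A : Type u} [CommRing A] [Algebra k A] {N : D.Sub A}
    {p : D.RA A} : p ∈ D.idealOf N ↔ D.expA A p ∈ N := Iff.rfl

theorem CurveDatum.map_idealOf {A : Type u} [CommRing A] [Algebra k A] {N : D.Sub A}
    (hN : N ≤ 1) : Submodule.map (Algebra.linearMap (D.RA A) (LaurentSeries A)) (D.idealOf N) = N := by
  refine le_antisymm (Submodule.map_comap_le _ _) fun x hx => ?_
  obtain ⟨p, rfl⟩ := Submodule.mem_one.1 (hN hx)
  exact ⟨p, hx, rfl⟩

/-- An invertible submodule is generated by one element modulo an ideal with finitely many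
maximal ideals above it. -/
theorem CurveDatum.exists_generator_mod {A : Type u} [CommRing A] [Algebra k A] {M : D.Sub A}
    (hM : IsUnit M) {I : Ideal (D.RA A)}
    (hfin : {P : Ideal (D.RA A) | P.IsMaximal ∧ I ≤ P}.Finite) :
    ∃ m ∈ M, M ≤ Submodule.span (D.RA A) {m} ⊔
      M * Submodule.map (Algebra.linearMap (D.RA A) (LaurentSeries A)) I := by
  classical
  let ι : D.RA A →ₗ[D.RA A] LaurentSeries A := Algebra.linearMap (D.RA A) (LaurentSeries A)
  have hι : Function.Injective ι := D.expA_injective A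
  have hle1 : ∀ J : Ideal (D.RA A), Submodule.map ι J ≤ (1 : D.Sub A) := fun J => by
    rintro _ ⟨p, -, rfl⟩
    exact Submodule.mem_one.2 ⟨p, rfl⟩
  let S := hfin.toFinset
  have hS : ∀ P, P ∈ S → P.IsMaximal ∧ I ≤ P := fun P hP => hfin.mem_toFinset.1 hP
  have hsec : ∀ P ∈ S, ∃ m ∈ M, m ∉ M * Submodule.map ι P := by
    intro P hP
    by_contra h
    push Not at h
    obtain ⟨N, hN⟩ := hM.exists_left_inv
    have h1 : N * M ≤ N * (M * Submodule.map ι P) := mul_le_mul' le_rfl h
    rw [← mul_assoc, hN, one_mul] at h1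
    obtain ⟨p, hp, hp1⟩ := h1 (Submodule.mem_one.2 ⟨1, map_one _⟩)
    exact (hS P hP).1.ne_top ((Ideal.eq_top_iff_one P).2 (hι (hp1.trans (map_one (D.expA A)).symm) ▸ hp))
  choose! m hm hm' using hsec
  have he : ∀ P ∈ S, ∃ e : D.RA A, e ∉ P ∧ ∀ Q ∈ S, Q ≠ P → e ∈ Q := by
    intro P hP
    have hPp := (hS P hP).1.isPrime
    obtain ⟨e, heP, he⟩ : ∃ e, e ∈ ∏ Q ∈ S.erase P, Q ∧ e ∉ P := by
      rw [← SetLike.not_le_iff_exists]
      intro h
      obtain ⟨Q, hQ, hQP⟩ := (Ideal.IsPrime.prod_le hPp).1 h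
      obtain ⟨hne, hQS⟩ := Finset.mem_erase.1 hQ
      exact hne ((hS Q hQS).1.eq_of_le hPp.ne_top hQP)
    exact ⟨e, he, fun Q hQ hne => (Ideal.prod_le_inf.trans (Finset.inf_le
      (Finset.mem_erase.2 ⟨hne, hQ⟩))) heP⟩
  choose! e he he' using he
  refine ⟨∑ P ∈ S, e P • m P, Submodule.sum_mem _ fun P hP => M.smul_mem _ (hm P hP), ?_⟩
  have hm₀ : ∀ P ∈ S, (∑ Q ∈ S, e Q • m Q) ∉ M * Submodule.map ι P := by
    intro P hP h
    have hsmul : ∀ q ∈ P, ∀ x ∈ M, q • x ∈ M * Submodule.map ι P := fun q hq x hx => by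
      rw [D.smul_def, mul_comm _ x]
      exact Submodule.mul_mem_mul hx ⟨q, hq, rfl⟩
    rw [← Finset.add_sum_erase _ _ hP, add_mem_cancel_right (Submodule.sum_mem _ fun Q hQ =>
      hsmul _ (he' Q (Finset.mem_of_mem_erase hQ) P hP (Finset.ne_of_mem_erase hQ).symm) _
        (hm Q (Finset.mem_of_mem_erase hQ)))] at h
    obtain ⟨a, q, hq, hae⟩ := (hS P hP).1.exists_inv (he P hP)
    refine hm' P hP ?_
    rw [← one_smul (D.RA A) (m P), ← hae, add_smul, mul_smul]
    exact add_mem (Submodule.smul_mem _ a h) (hsmul q hq _ (hm P hP))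
  set m₀ := ∑ Q ∈ S, e Q • m Q
  obtain ⟨N, hN⟩ := hM.exists_right_inv
  set J : D.Sub A := N * (Submodule.span (D.RA A) {m₀} ⊔ M * Submodule.map ι I) with hJ
  have hm₀M : m₀ ∈ M := Submodule.sum_mem _ fun P hP => M.smul_mem _ (hm P hP)
  have hJ1 : J ≤ 1 := by
    rw [hJ, ← hN, mul_comm M N]
    exact mul_le_mul' le_rfl (sup_le ((Submodule.span_singleton_le_iff_mem _ _).2 hm₀M)
      (mul_le_of_le_one_right' (hle1 I)))
  have hMJ : M * J = Submodule.span (D.RA A) {m₀} ⊔ M * Submodule.map ι I := by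
    rw [hJ, ← mul_assoc, hN, one_mul]
  have htop : D.idealOf J = ⊤ := by
    by_contra hne
    obtain ⟨P, hP, hJP⟩ := Ideal.exists_le_maximal _ hne
    have hJ' : J ≤ Submodule.map ι P := by
      rw [← CurveDatum.map_idealOf hJ1]
      exact Submodule.map_mono hJP
    have hI : Submodule.map ι I ≤ J := by
      calc Submodule.map ι I = N * (M * Submodule.map ι I) := by rw [← mul_assoc, mul_comm N M, hN, one_mul]
        _ ≤ J := mul_le_mul' le_rfl le_sup_right
    have hIP : I ≤ P := fun p hp => hJP (hI ⟨p, hp, rfl⟩)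
    refine hm₀ P (hfin.mem_toFinset.2 ⟨hP, hIP⟩) ?_
    have := mul_le_mul' (le_refl M) hJ'
    rw [hMJ] at this
    exact this (le_sup_left (a := Submodule.span (D.RA A) {m₀})
      (Submodule.mem_span_singleton_self m₀))
  rw [← hMJ]
  refine le_mul_of_one_le_right' (Submodule.one_le.2 ?_)
  rw [← map_one (D.expA A)]
  exact (CurveDatum.mem_idealOf (D := D)).1 (htop ▸ Submodule.mem_top)

variable {K : Type u} [Field K] [Algebra k K]

theorem CurveDatum.IsLat.chi_eq_add_finrank {L M : D.Sub K} (hL : D.IsLat L) (hM : D.IsLat M)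
    (h : L ≤ M) : Module.Finite K (M ⧸ L.comap M.subtype) ∧
      D.chi M = D.chi L + finrank K (M ⧸ L.comap M.subtype) := by
  obtain ⟨n, hn⟩ := hL.exists_surj
  have hLn := hn n le_rfl
  have hMn : D.Surj M n := fun x => by
    obtain ⟨l, hl, hlx⟩ := hLn x
    exact ⟨l, h hl, hlx⟩
  let φ : D.kerMod M n →ₗ[K] M ⧸ L.comap M.subtype :=
    { toFun := fun x => Submodule.Quotient.mk ⟨x, x.2.1⟩
      map_add' := fun _ _ => rfl
      map_smul' := fun _ _ => rfl }
  have hsurj : Function.Surjective φ := by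
    intro q
    obtain ⟨⟨x, hx⟩, rfl⟩ := Submodule.Quotient.mk_surjective _ q
    obtain ⟨l, hl, hlx⟩ := hLn x
    refine ⟨⟨x - l, sub_mem hx (h hl), hlx⟩, (Submodule.Quotient.eq _).2 ?_⟩
    show x - l - x ∈ L
    rw [sub_sub_cancel_left]
    exact neg_mem hl
  have hker : (LinearMap.ker φ).map (D.kerMod M n).subtype = D.kerMod L n := by
    ext x
    constructor
    · rintro ⟨z, hz, rfl⟩
      have hz0 : φ z = 0 := hz
      exact ⟨(Submodule.Quotient.mk_eq_zero (L.comap M.subtype) (x := (⟨z, z.2.1⟩ : M))).1 hz0,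
        z.2.2⟩
    · intro hx
      exact ⟨⟨x, h hx.1, hx.2⟩, (Submodule.Quotient.mk_eq_zero _).2 hx.1, rfl⟩
  have := hM.finite_kerMod hMn
  refine ⟨Module.Finite.of_surjective φ hsurj, ?_⟩
  have h1 := φ.finrank_range_add_finrank_ker
  rw [LinearMap.range_eq_top.2 hsurj, finrank_top,
    (Submodule.equivMapOfInjective (D.kerMod M n).subtype Subtype.val_injective
      (LinearMap.ker φ)).finrank_eq, hker] at h1
  rw [hM.chi_eq hMn, hL.chi_eq hLn]
  omega

theorem CurveDatum.exists_quotEquiv {L M : D.Sub K} {I : Ideal (D.RA K)} {m : LaurentSeries K}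
    (hm : m ∈ M) (hgen : M ≤ Submodule.span (D.RA K) {m} ⊔ L)
    (hI : ∀ p : D.RA K, p • m ∈ L ↔ p ∈ I) :
    Nonempty ((D.RA K ⧸ I) ≃ₗ[K] M ⧸ L.comap M.subtype) := by
  let g : D.RA K →ₗ[D.RA K] M ⧸ L.comap M.subtype :=
    (L.comap M.subtype).mkQ.comp (LinearMap.toSpanSingleton (D.RA K) M ⟨m, hm⟩)
  have hker : LinearMap.ker g = I := by
    ext p
    exact (Submodule.Quotient.mk_eq_zero _).trans (hI p)
  have hsurj : Function.Surjective g := by
    intro q
    obtain ⟨⟨x, hx⟩, rfl⟩ := Submodule.Quotient.mk_surjective _ q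
    obtain ⟨y, hy, l, hl, hyl⟩ := Submodule.mem_sup.1 (hgen hx)
    obtain ⟨p, rfl⟩ := Submodule.mem_span_singleton.1 hy
    refine ⟨p, (Submodule.Quotient.eq _).2 ?_⟩
    show p • m - x ∈ L
    rw [← hyl, sub_add_cancel_left]
    exact neg_mem hl
  exact ⟨((Submodule.quotEquivOfEq _ _ hker.symm).trans
    (g.quotKerEquivOfSurjective hsurj)).restrictScalars K⟩

theorem CurveDatum.IsLat.chi_mul_of_le_one {M N : D.Sub K} (hM : D.IsLat M) (hN : D.IsLat N)
    (h : N ≤ 1) : D.chi (M * N) + D.chi (1 : D.Sub K) = D.chi M + D.chi N := by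
  classical
  set I := D.idealOf N with hI
  obtain ⟨hfin, h1⟩ := hN.chi_eq_add_finrank D.isLat_one h
  obtain ⟨e⟩ := CurveDatum.exists_quotEquiv (L := N) (M := (1 : D.Sub K)) (I := I)
    (Submodule.mem_one.2 ⟨1, map_one _⟩)
    (le_sup_of_le_left (le_of_eq D.span_singleton_one.symm)) fun p => by
      rw [D.smul_def, mul_one]
      exact (CurveDatum.mem_idealOf (D := D)).symm
  have : Module.Finite K (D.RA K ⧸ I) := Module.Finite.equiv e.symm
  have : IsArtinianRing (D.RA K ⧸ I) := isArtinian_of_tower K inferInstance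
  have hfinP : {P : Ideal (D.RA K) | P.IsMaximal ∧ I ≤ P}.Finite := by
    refine (Set.finite_range fun Q : MaximalSpectrum (D.RA K ⧸ I) =>
      Q.asIdeal.comap (Ideal.Quotient.mk I)).subset ?_
    rintro P ⟨hP, hIP⟩
    refine ⟨⟨P.map (Ideal.Quotient.mk I), ?_⟩, ?_⟩
    · rcases Ideal.map_eq_top_or_isMaximal_of_surjective (Ideal.Quotient.mk I)
        Ideal.Quotient.mk_surjective hP with
        h | h
      · refine absurd ?_ hP.ne_top
        have h' := Ideal.comap_map_of_surjective' (Ideal.Quotient.mk I) Ideal.Quotient.mk_surjective P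
        rw [h, Ideal.comap_top, Ideal.mk_ker, sup_eq_left.2 hIP] at h'
        exact h'.symm
      · exact h
    · show (P.map (Ideal.Quotient.mk I)).comap (Ideal.Quotient.mk I) = P
      rw [Ideal.comap_map_of_surjective' (Ideal.Quotient.mk I) Ideal.Quotient.mk_surjective,
        Ideal.mk_ker,
        sup_eq_left.2 hIP]
  obtain ⟨m, hm, hgen⟩ := CurveDatum.exists_generator_mod hM.isUnit hfinP
  rw [hI, CurveDatum.map_idealOf h] at hgen
  obtain ⟨hfin', h2⟩ := (hM.mul hN).chi_eq_add_finrank hM (mul_le_of_le_one_right' h)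
  obtain ⟨e'⟩ := CurveDatum.exists_quotEquiv (I := I) hm hgen fun p => by
    refine ⟨fun hp => ?_, fun hp => ?_⟩
    · obtain ⟨W, hW⟩ := hM.isUnit.exists_left_inv
      have hJ : W * Submodule.span (D.RA K) {m} ⊔ N = 1 := by
        refine le_antisymm (sup_le ?_ h) ?_
        · rw [← hW]
          exact mul_le_mul' le_rfl ((Submodule.span_singleton_le_iff_mem _ _).2 hm)
        · calc (1 : D.Sub K) = W * M := hW.symm
            _ ≤ W * (Submodule.span (D.RA K) {m} ⊔ M * N) := mul_le_mul' le_rfl hgen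
            _ = W * Submodule.span (D.RA K) {m} ⊔ N := by
              rw [Submodule.mul_sup, ← mul_assoc, hW, one_mul]
      rw [hI, CurveDatum.mem_idealOf]
      have hle : Submodule.span (D.RA K) {D.expA K p} * (W * Submodule.span (D.RA K) {m} ⊔ N) ≤
          N := by
        rw [Submodule.mul_sup]
        refine sup_le ?_ (mul_le_of_le_one_left' ((Submodule.span_singleton_le_iff_mem _ _).2
          (Submodule.mem_one.2 ⟨p, rfl⟩)))
        calc Submodule.span (D.RA K) {D.expA K p} * (W * Submodule.span (D.RA K) {m})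
            = W * Submodule.span (D.RA K) {D.expA K p * m} := by
              rw [mul_left_comm, Submodule.span_mul_span, Set.singleton_mul_singleton]
          _ ≤ W * (M * N) := mul_le_mul' le_rfl ((Submodule.span_singleton_le_iff_mem _ _).2
              (by rw [← D.smul_def]; exact hp))
          _ = N := by rw [← mul_assoc, hW, one_mul]
      rw [hJ, mul_one] at hle
      exact hle (Submodule.mem_span_singleton_self _)
    · rw [D.smul_def, mul_comm _ m]
      exact Submodule.mul_mem_mul hm ((CurveDatum.mem_idealOf (D := D)).1 hp)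
  rw [h1, h2, ← e.finrank_eq, ← e'.finrank_eq]
  ring

/-- The Euler characteristic is additive in tensor products. -/
theorem CurveDatum.IsLat.chi_mul {M N : D.Sub K} (hM : D.IsLat M) (hN : D.IsLat N) :
    D.chi (M * N) + D.chi (1 : D.Sub K) = D.chi M + D.chi N := by
  obtain ⟨W, hW⟩ := hN.isUnit.exists_left_inv
  obtain ⟨r, v, hr, hv, hmem⟩ :=
    (D.isLat_of_isUnit_field (IsUnit.of_mul_eq_one N hW : IsUnit W)).exists_mem
  obtain ⟨i, hi⟩ := D.exists_isMonicAt_expR K hr
  have hc := hi.mul (isUnitSeries_iff.1 hv)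
  set c := D.expR K r * v
  have hNc : D.IsLat (N * Submodule.span (D.RA K) {c}) :=
    D.isLat_of_isUnit_field (hN.isUnit.mul (D.isUnit_span_singleton hc.isUnit))
  have hle : N * Submodule.span (D.RA K) {c} ≤ 1 := by
    rw [← hW, mul_comm W N]
    exact mul_le_mul' le_rfl ((Submodule.span_singleton_le_iff_mem _ _).2 hmem)
  have h := hM.chi_mul_of_le_one hNc hle
  rw [← mul_assoc, (hM.mul hN).chi_mul_span hc (by rw [mul_assoc]; exact hM.mul hNc),
    hN.chi_mul_span hc hNc] at h
  linarith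

end FermatAgent.Jacobian
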