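import Fermat.Agent.Jacobian.Lat.Chi
import Fermat.Agent.Jacobian.Lat.Points

/-!
# Lattices over a field: shifts, points and charts
-/

set_option autoImplicit false

noncomputable section

universe u

namespace FermatAgent.Jacobian

open scoped TensorProduct
open Module

variable {k : Type u} [Field k] {D : CurveDatum k} {K : Type u} [Field K] [Algebra k K]

theorem CurveDatum.surj_mul_span {A : Type u} [CommRing A] [Algebra k A] {M : D.Sub A}
    {c : LaurentSeries A} {d : ℤ} (hc : IsMonicAt c d) {n : ℤ} (h : D.Surj M n) :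
    D.Surj (M * Submodule.span (D.RA A) {c}) (n + d) := fun x => by
  obtain ⟨c', hc', hcc⟩ := hc.exists_inv
  obtain ⟨m, hm, hmx⟩ := h (x * c')
  refine ⟨m * c, D.mul_mem_mul_singleton hm, ?_⟩
  rw [show x - m * c = (x * c' - m) * c by linear_combination (-x) * hcc]
  exact mul_mem_fil hmx hc.1

theorem CurveDatum.kerMod_mul_span {A : Type u} [CommRing A] [Algebra k A] {M : D.Sub A}
    {c : LaurentSeries A} {d : ℤ} (hc : IsMonicAt c d) (n : ℤ) :
    D.kerMod (M * Submodule.span (D.RA A) {c}) (n + d) =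
      (D.kerMod M n).map (LinearMap.mulRight A c) := by
  ext y
  constructor
  · rintro ⟨hy, hyf⟩
    obtain ⟨m, hm, rfl⟩ := D.mem_mul_singleton.1 hy
    exact ⟨m, ⟨hm, hc.mul_mem_fil_iff.1 hyf⟩, rfl⟩
  · rintro ⟨m, ⟨hm, hmf⟩, rfl⟩
    exact ⟨D.mul_mem_mul_singleton hm, hc.mul_mem_fil_iff.2 hmf⟩

theorem CurveDatum.IsLat.chi_mul_span {M : D.Sub K} (hM : D.IsLat M) {c : LaurentSeries K} {d : ℤ}
    (hc : IsMonicAt c d) (hMc : D.IsLat (M * Submodule.span (D.RA K) {c})) :
    D.chi (M * Submodule.span (D.RA K) {c}) = D.chi M + d := by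
  obtain ⟨n, hn⟩ := hM.exists_surj
  have h := hn n le_rfl
  rw [hMc.chi_eq (CurveDatum.surj_mul_span hc h), hM.chi_eq h, CurveDatum.kerMod_mul_span hc,
    ← (Submodule.equivMapOfInjective (LinearMap.mulRight K c)
      (fun a b hab => hc.isUnit.mul_right_cancel hab) (D.kerMod M n)).finrank_eq]
  ring

theorem CurveDatum.IsLat.chi_twist {M : D.Sub K} (hM : D.IsLat M) (j : ℤ) :
    D.chi (D.twist j M) = D.chi M + j :=
  hM.chi_mul_span (isMonicAt_single j) (hM.twist j)

theorem CurveDatum.IsLat.chi_equiv {M M' : D.Sub K} (hM : D.IsLat M) (h : D.Equiv M M') :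
    D.chi M' = D.chi M := by
  obtain ⟨u, hu, rfl⟩ := h
  rw [hM.chi_mul_span (isUnitSeries_iff.1 hu) (hM.mul (D.isLat_span_unitSeries hu)), add_zero]

theorem CurveDatum.IsLat.compl_twist {A : Type u} [CommRing A] [Algebra k A] {M : D.Sub A}
    (j n : ℤ) : D.Compl (D.twist j M) (n + j) ↔ D.Compl M n := by
  have key : ∀ (M : D.Sub A) (j n : ℤ), D.Compl M n → D.Compl (D.twist j M) (n + j) := by
    intro M j n h
    rw [CurveDatum.compl_iff] at h ⊢
    exact ⟨CurveDatum.surj_mul_span (isMonicAt_single j) h.1,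
      by rw [CurveDatum.twist, CurveDatum.kerMod_mul_span (isMonicAt_single j), h.2,
        Submodule.map_bot]⟩
  refine ⟨fun h => ?_, key M j n⟩
  have := key _ (-j) _ h
  rwa [CurveDatum.twist, CurveDatum.twist, mul_assoc, Submodule.span_mul_span,
    Set.singleton_mul_singleton, HahnSeries.single_mul_single, add_neg_cancel, one_mul,
    show HahnSeries.single (0 : ℤ) (1 : A) = 1 from rfl, D.span_singleton_one, mul_one,
    add_neg_cancel_right] at this

/-- Over a field the sections not vanishing at a point are detected by one functional. -/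
theorem CurveDatum.IsLat.exists_pointFunctional {M : D.Sub K} (hM : D.IsLat M)
    (φ : D.R →ₐ[k] k) :
    ∃ L : M →ₗ[K] K, L ≠ 0 ∧
      ∀ x : M, L x = 0 ↔ (x : LaurentSeries K) ∈ M * D.pointIdeal K φ := by
  classical
  obtain ⟨J, _, m, w, c, hm, hw, hc⟩ := D.exists_frame hM.isUnit
  let L : J → M →ₗ[K] K := fun j =>
    (D.evalA K φ).toLinearMap.comp ((c j).restrictScalars K)
  have hiff : ∀ x : M, (∀ j, L j x = 0) ↔ (x : LaurentSeries K) ∈ M * D.pointIdeal K φ := by
    intro x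
    constructor
    · intro h
      rw [← hc x]
      refine Submodule.sum_mem _ fun j _ => ?_
      rw [D.smul_def, mul_comm (D.expA K _)]
      exact Submodule.mul_mem_mul (hm j) (D.expA_mem_pointIdeal K φ (h j))
    · intro hx j
      suffices h : ∀ y ∈ M * D.pointIdeal K φ, ∃ hy : y ∈ M, L j ⟨y, hy⟩ = 0 by
        obtain ⟨_, h'⟩ := h _ hx
        exact h'
      intro y hy
      refine Submodule.mul_induction_on hy (fun a ha b hb => ?_) fun a b ha hb => ?_
      · obtain ⟨p, rfl, hp⟩ := D.exists_of_mem_pointIdeal K φ hb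
        have hmem : a * D.expA K p ∈ M := by
          rw [mul_comm, ← D.smul_def]; exact Submodule.smul_mem M p ha
        refine ⟨hmem, ?_⟩
        show D.evalA K φ (c j ⟨_, hmem⟩) = 0
        rw [show (⟨_, hmem⟩ : M) = p • ⟨a, ha⟩ from Subtype.ext (mul_comm _ _), map_smul,
          smul_eq_mul, map_mul, hp, zero_mul]
      · obtain ⟨ha', ha⟩ := ha
        obtain ⟨hb', hb⟩ := hb
        exact ⟨add_mem ha' hb', by
          rw [show (⟨a + b, _⟩ : M) = ⟨a, ha'⟩ + ⟨b, hb'⟩ from rfl, map_add, ha, hb, add_zero]⟩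
  obtain ⟨j₀, y₀, hj₀⟩ : ∃ j y, L j y ≠ 0 := by
    by_contra h
    push Not at h
    have h1 : M ≤ M * D.pointIdeal K φ := fun x hx => (hiff ⟨x, hx⟩).1 fun j => h j _
    obtain ⟨N, hN⟩ := hM.isUnit.exists_left_inv
    have h2 : (1 : LaurentSeries K) ∈ D.pointIdeal K φ := by
      have h2' : N * M ≤ N * (M * D.pointIdeal K φ) := mul_le_mul' le_rfl h1
      rw [← mul_assoc, hN, one_mul] at h2'
      exact h2' (Submodule.mem_one.2 ⟨1, map_one _⟩)
    obtain ⟨p, hp, hp'⟩ := D.exists_of_mem_pointIdeal K φ h2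
    have h3 : p = 1 := D.expA_injective K (by rw [hp, map_one])
    rw [h3, map_one] at hp'
    exact one_ne_zero hp'
  refine ⟨L j₀, fun h => hj₀ (by rw [h]; rfl), fun x => ⟨fun h => (hiff x).1 fun i => ?_,
    fun h => (hiff x).2 h j₀⟩⟩
  have hswap : c j₀ x • y₀ = c j₀ y₀ • x := Subtype.ext (by
    rw [Submodule.coe_smul, Submodule.coe_smul, D.smul_def, D.smul_def, hw, hw]
    ring)
  have h4 := congrArg (L i) hswap
  simp only [L, LinearMap.comp_apply, LinearMap.restrictScalars_apply, map_smul, smul_eq_mul,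
    AlgHom.toLinearMap_apply, map_mul] at h4 h hj₀ ⊢
  rw [h, zero_mul, eq_comm, mul_eq_zero] at h4
  exact h4.resolve_left hj₀

/-- Removing a point at which some section is nonzero. -/
theorem CurveDatum.IsLat.chi_mul_pointIdeal_aux {M : D.Sub K} (hM : D.IsLat M)
    (φ : D.R →ₐ[k] k) {n : ℤ} (h : D.Surj M n) {y : LaurentSeries K} (hy : y ∈ D.kerMod M n)
    (hy' : y ∉ M * D.pointIdeal K φ) :
    D.Surj (M * D.pointIdeal K φ) n ∧
      finrank K (D.kerMod (M * D.pointIdeal K φ) n) + 1 = finrank K (D.kerMod M n) ∧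
      D.chi (M * D.pointIdeal K φ) = D.chi M - 1 := by
  obtain ⟨L, -, hL⟩ := hM.exists_pointFunctional φ
  set y' : M := ⟨y, hy.1⟩
  have hLy : L y' ≠ 0 := fun h0 => hy' ((hL y').1 h0)
  have hsurj : D.Surj (M * D.pointIdeal K φ) n := fun x => by
    obtain ⟨m, hm, hmx⟩ := h x
    refine ⟨m - (L ⟨m, hm⟩ / L y') • y, ?_, ?_⟩
    · refine (hL (⟨m, hm⟩ - (L ⟨m, hm⟩ / L y') • y')).1 ?_
      rw [map_sub, map_smul, smul_eq_mul, div_mul_cancel₀ _ hLy, sub_self]
    · rw [← sub_add]
      exact add_mem hmx (Submodule.smul_mem _ _ hy.2)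
  have hfin := hM.finite_kerMod h
  let i : D.kerMod M n →ₗ[K] M :=
    { toFun := fun x => ⟨x, x.2.1⟩
      map_add' := fun _ _ => rfl
      map_smul' := fun _ _ => rfl }
  have hrange : LinearMap.range (L.comp i) = ⊤ := LinearMap.range_eq_top.2 fun a =>
    ⟨(a / L y') • ⟨y, hy⟩, by
      rw [map_smul, smul_eq_mul]
      exact div_mul_cancel₀ _ hLy⟩
  have hle : ∀ x ∈ D.kerMod (M * D.pointIdeal K φ) n, x ∈ D.kerMod M n := fun x hx =>
    ⟨(mul_le_of_le_one_right' (D.pointIdeal_le_one K φ) :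
      M * D.pointIdeal K φ ≤ M) hx.1, hx.2⟩
  have hker : (LinearMap.ker (L.comp i)).map (D.kerMod M n).subtype =
      D.kerMod (M * D.pointIdeal K φ) n := by
    ext x
    constructor
    · rintro ⟨z, hz, rfl⟩
      exact ⟨(hL (i z)).1 hz, z.2.2⟩
    · intro hx
      exact ⟨⟨x, hle x hx⟩, (hL (i ⟨x, hle x hx⟩)).2 hx.1, rfl⟩
  have h1 := (L.comp i).finrank_range_add_finrank_ker
  rw [hrange, finrank_top, Module.finrank_self,
    (Submodule.equivMapOfInjective (D.kerMod M n).subtype Subtype.val_injective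
      (LinearMap.ker (L.comp i))).finrank_eq, hker] at h1
  refine ⟨hsurj, by omega, ?_⟩
  rw [(hM.mul (D.isLat_pointIdeal K φ)).chi_eq hsurj, hM.chi_eq h]
  omega

/-- The sections vanishing at a point have characteristic one less. -/
theorem CurveDatum.IsLat.chi_mul_pointIdeal {M : D.Sub K} (hM : D.IsLat M) (φ : D.R →ₐ[k] k) :
    D.chi (M * D.pointIdeal K φ) = D.chi M - 1 := by
  obtain ⟨L, hL0, hL⟩ := hM.exists_pointFunctional φ
  obtain ⟨y, hy⟩ : ∃ y, L y ≠ 0 := by
    by_contra hne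
    push Not at hne
    exact hL0 (LinearMap.ext hne)
  obtain ⟨n₀, hn₀⟩ := hM.exists_surj
  obtain ⟨N, hN⟩ := exists_mem_fil (y : LaurentSeries K)
  exact (hM.chi_mul_pointIdeal_aux φ (hn₀ (min n₀ N) (min_le_left _ _)) (y := y)
    ⟨y.2, fil_mono (min_le_right _ _) hN⟩ fun h => hy ((hL y).2 h)).2.2

theorem CurveDatum.IsLat.mul_prod_pointIdeal {A : Type u} [CommRing A] [Algebra k A]
    {M : D.Sub A} (hM : D.IsLat M) (xs : List (D.R →ₐ[k] k)) :
    D.IsLat (M * (xs.map (D.pointIdeal A)).prod) := by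
  induction xs generalizing M with
  | nil => simpa using hM
  | cons φ xs ih =>
    rw [List.map_cons, List.prod_cons, ← mul_assoc]
    exact ih (hM.mul (D.isLat_pointIdeal A φ))

theorem CurveDatum.IsLat.chi_mul_prod {M : D.Sub K} (hM : D.IsLat M)
    (xs : List (D.R →ₐ[k] k)) :
    D.chi (M * (xs.map (D.pointIdeal K)).prod) = D.chi M - xs.length := by
  induction xs generalizing M with
  | nil => simp
  | cons φ xs ih =>
    rw [List.map_cons, List.prod_cons, ← mul_assoc, ih (hM.mul (D.isLat_pointIdeal K φ)),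
      hM.chi_mul_pointIdeal, List.length_cons]
    push_cast
    ring

/-- Points cut any lattice down to one without cohomology. -/
theorem CurveDatum.IsLat.exists_chart [IsAlgClosed k] {M : D.Sub K} (hM : D.IsLat M) {n : ℤ}
    (h : D.Surj M n) :
    ∃ xs : List (D.R →ₐ[k] k), (xs.length : ℤ) = D.chi M - n ∧
      D.Compl (M * (xs.map (D.pointIdeal K)).prod) n := by
  classical
  obtain ⟨d, hd⟩ : ∃ d, finrank K (D.kerMod M n) = d := ⟨_, rfl⟩
  induction d generalizing M with
  | zero =>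
    have := hM.finite_kerMod h
    refine ⟨[], by rw [hM.chi_eq h, hd]; simp, ?_⟩
    rw [List.map_nil, List.prod_nil, mul_one]
    exact CurveDatum.compl_iff.2 ⟨h, Submodule.finrank_eq_zero.1 hd⟩
  | succ d ih =>
    obtain ⟨y, hy, hy0⟩ : ∃ y ∈ D.kerMod M n, y ≠ 0 := by
      refine Submodule.exists_mem_ne_zero_of_ne_bot fun h0 => ?_
      rw [h0, finrank_bot] at hd
      exact Nat.succ_ne_zero d hd.symm
    obtain ⟨J, _, m, w, c, hm, hw, hc⟩ := D.exists_frame hM.isUnit
    obtain ⟨j, hj⟩ : ∃ j, c j ⟨y, hy.1⟩ ≠ 0 := by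
      by_contra h0
      push Not at h0
      refine hy0 ((hc ⟨y, hy.1⟩).symm.trans (Finset.sum_eq_zero fun j _ => ?_))
      rw [h0, zero_smul]
    obtain ⟨φ, hφ⟩ := D.exists_evalA_ne_zero K hj
    have hy' : y ∉ M * D.pointIdeal K φ := fun hmem => hφ (by
      suffices H : ∀ z ∈ M * D.pointIdeal K φ, ∃ hz : z ∈ M, D.evalA K φ (c j ⟨z, hz⟩) = 0 from
        (H y hmem).2
      intro z hz
      refine Submodule.mul_induction_on hz (fun a ha b hb => ?_) fun a b ha hb => ?_
      · obtain ⟨p, rfl, hp⟩ := D.exists_of_mem_pointIdeal K φ hb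
        have hmem' : a * D.expA K p ∈ M := by
          rw [mul_comm, ← D.smul_def]; exact Submodule.smul_mem M p ha
        refine ⟨hmem', ?_⟩
        rw [show (⟨_, hmem'⟩ : M) = p • ⟨a, ha⟩ from Subtype.ext (mul_comm _ _), map_smul,
          smul_eq_mul, map_mul, hp, zero_mul]
      · obtain ⟨ha', ha⟩ := ha
        obtain ⟨hb', hb⟩ := hb
        exact ⟨add_mem ha' hb', by
          rw [show (⟨a + b, _⟩ : M) = ⟨a, ha'⟩ + ⟨b, hb'⟩ from rfl, map_add, map_add, ha, hb,
            add_zero]⟩)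
    obtain ⟨h1, h2, h3⟩ := hM.chi_mul_pointIdeal_aux φ h hy hy'
    obtain ⟨xs, hlen, hcompl⟩ := ih (hM.mul (D.isLat_pointIdeal K φ)) h1 (by omega)
    refine ⟨φ :: xs, ?_, by rwa [List.map_cons, List.prod_cons, ← mul_assoc]⟩
    rw [List.length_cons, Nat.cast_succ, hlen, h3]
    ring

end FermatAgent.Jacobian
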