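import Fermat.Agent.Jacobian.Lat.Lattice
import Mathlib.RingTheory.Flat.Basic

/-!
# Finiteness of the global sections of a lattice
-/

set_option autoImplicit false

noncomputable section

universe u

namespace FermatAgent.Jacobian

open scoped TensorProduct

variable {k : Type u} [Field k] (D : CurveDatum k) {A : Type u} [CommRing A] [Algebra k A]

/-- The global sections at level `n`. -/
def CurveDatum.kerMod (M : D.Sub A) (n : ℤ) : Submodule A (LaurentSeries A) :=
  M.restrictScalars A ⊓ fil A n

variable {D}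

theorem CurveDatum.Surj.mono {M : D.Sub A} {n m : ℤ} (h : D.Surj M n) (hm : m ≤ n) :
    D.Surj M m := fun x => by
  obtain ⟨y, hy, hxy⟩ := h x
  exact ⟨y, hy, fil_mono hm hxy⟩

theorem CurveDatum.compl_iff {M : D.Sub A} {n : ℤ} :
    D.Compl M n ↔ D.Surj M n ∧ D.kerMod M n = ⊥ :=
  and_congr_right fun _ => ⟨fun h => (Submodule.eq_bot_iff _).2 fun x hx => h x hx.1 hx.2,
    fun h x hx hx' => (Submodule.eq_bot_iff _).1 h x ⟨hx, hx'⟩⟩

theorem CurveDatum.IsLat.exists_monic_mem {M : D.Sub A} (hM : D.IsLat M) :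
    ∃ n₁ : ℤ, ∀ i ≤ n₁, ∃ e ∈ M, IsMonicAt e i := by
  obtain ⟨r, u, hr, hu, hm⟩ := hM.exists_mem
  obtain ⟨j, hj⟩ := D.exists_isMonicAt_expR A hr
  obtain ⟨n₁, hn₁⟩ := D.exists_monic_below A
  refine ⟨n₁ + j, fun i hi => ?_⟩
  obtain ⟨s, -, hs⟩ := hn₁ (i - j) (by omega)
  refine ⟨D.expR A s * (D.expR A r * u), ?_, ?_⟩
  · rw [D.expR_eq, ← D.smul_def]
    exact Submodule.smul_mem M _ hm
  · have := hs.mul (hj.mul (isUnitSeries_iff.1 hu))
    rwa [add_zero, sub_add_cancel] at this

/-- The first cohomology vanishes at all low levels. -/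
theorem CurveDatum.IsLat.exists_surj {M : D.Sub A} (hM : D.IsLat M) :
    ∃ n₀ : ℤ, ∀ n ≤ n₀, D.Surj M n := by
  obtain ⟨n₁, hn₁⟩ := hM.exists_monic_mem
  refine ⟨n₁, fun n hn x => ?_⟩
  obtain ⟨N, hN⟩ := exists_mem_fil x
  exact exists_sub_mem_fil (M.restrictScalars A) (fun i _ hi => hn₁ i (by omega)) hN

/-- The terms below `n`. -/
def tailBelow (n : ℤ) : LaurentSeries A →ₗ[A] ({i : ℤ // i < n} →₀ A) where
  toFun x := Finsupp.ofSupportFinite (fun i : {i : ℤ // i < n} => x.coeff i) (by
    obtain ⟨N, hN⟩ := exists_mem_fil x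
    refine ((Set.finite_Ico N n).preimage Subtype.val_injective.injOn).subset fun i hi => ?_
    exact ⟨not_lt.1 fun h => hi (hN _ h), i.2⟩)
  map_add' x y := Finsupp.ext fun _ => HahnSeries.coeff_add
  map_smul' a x := Finsupp.ext fun _ => coeff_smul_fil a x _

/-- A retraction of the lattice to its sections at level `n`. -/
theorem CurveDatum.exists_retraction {M : D.Sub A} {n : ℤ} (h : D.Surj M n) :
    ∃ π : M →ₗ[A] D.kerMod M n, ∀ (x : D.kerMod M n), π ⟨x, x.2.1⟩ = x := by
  choose e he hee using fun i : {i : ℤ // i < n} => h (HahnSeries.single (i : ℤ) (1 : A))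
  let incl : M →ₗ[A] LaurentSeries A := M.subtype.restrictScalars A
  let tail : M →ₗ[A] LaurentSeries A :=
    (Finsupp.linearCombination A e).comp ((tailBelow n).comp incl)
  have hmem : ∀ x : M, (incl - tail) x ∈ D.kerMod M n := by
    intro x
    refine ⟨sub_mem x.2 ?_, fun j hj => ?_⟩
    · show Finsupp.linearCombination A e _ ∈ M.restrictScalars A
      rw [Finsupp.linearCombination_apply]
      exact Submodule.sum_mem _ fun i _ => Submodule.smul_mem _ _ (he i)
    · rw [LinearMap.sub_apply, HahnSeries.coeff_sub, sub_eq_zero]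
      show (x : LaurentSeries A).coeff j = (Finsupp.linearCombination A e _).coeff j
      rw [Finsupp.linearCombination_apply, Finsupp.sum, HahnSeries.coeff_sum]
      have hej : ∀ i : {i : ℤ // i < n}, (e i).coeff j = if (i : ℤ) = j then 1 else 0 := fun i => by
        have := hee i j hj
        rw [HahnSeries.coeff_sub, sub_eq_zero] at this
        rw [← this]
        rcases eq_or_ne (i : ℤ) j with h' | h'
        · rw [h', HahnSeries.coeff_single_same, if_pos rfl]
        · rw [HahnSeries.coeff_single_of_ne (Ne.symm h'), if_neg h']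
      simp only [coeff_smul_fil, hej, mul_ite, mul_one, mul_zero]
      rw [Finset.sum_eq_single (⟨j, hj⟩ : {i : ℤ // i < n})
        (fun i _ hne => if_neg fun h' => hne (Subtype.ext h')) fun hns => ?_, if_pos rfl]
      · rfl
      · rw [if_pos rfl]
        exact Finsupp.notMem_support_iff.1 hns
  refine ⟨(incl - tail).codRestrict (D.kerMod M n) hmem, fun x => Subtype.ext ?_⟩
  show (x : LaurentSeries A) - Finsupp.linearCombination A e (tailBelow n x) = x
  rw [show tailBelow n (x : LaurentSeries A) = 0 from Finsupp.ext fun i => x.2.2 i i.2, map_zero,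
    sub_zero]

theorem CurveDatum.IsLat.projective_kerMod {M : D.Sub A} (hM : D.IsLat M) {n : ℤ}
    (h : D.Surj M n) : Module.Projective A (D.kerMod M n) := by
  have := D.projective_of_isUnit hM.isUnit
  obtain ⟨π, hπ⟩ := CurveDatum.exists_retraction h
  let i : D.kerMod M n →ₗ[A] M :=
    { toFun := fun x => ⟨x, x.2.1⟩
      map_add' := fun _ _ => rfl
      map_smul' := fun _ _ => rfl }
  exact Module.Projective.of_split i π (LinearMap.ext fun x => hπ x)

theorem CurveDatum.IsLat.finite_kerMod {M : D.Sub A} (hM : D.IsLat M) {n : ℤ}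
    (h : D.Surj M n) : Module.Finite A (D.kerMod M n) := by
  classical
  obtain ⟨J, _, m, w, c, hm, hw, hc⟩ := D.exists_frame hM.isUnit
  obtain ⟨N₀, hN₀⟩ := D.exists_bound A
  choose e he using fun j => exists_mem_fil (w j)
  let μ : J → D.RA A →ₗ[A] M := fun j =>
    (LinearMap.toSpanSingleton (D.RA A) M ⟨m j, hm j⟩).restrictScalars A
  let F : Submodule A M := ⨆ j, (D.polesA A (max N₀ (-(n + e j)))).map (μ j)
  have hF : F.FG := Submodule.fg_iSup _ fun j => (D.fg_polesA A _).map _
  obtain ⟨π, hπ⟩ := CurveDatum.exists_retraction h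
  refine ⟨?_⟩
  rw [show (⊤ : Submodule A (D.kerMod M n)) = F.map π from ?_]
  · exact hF.map _
  refine (eq_top_iff.2 fun x _ => ⟨⟨x, x.2.1⟩, ?_, hπ x⟩).symm
  set x' : M := ⟨x, x.2.1⟩
  have hsum : x' = ∑ j, μ j (c j x') := Subtype.ext (by
    rw [Submodule.coe_sum]
    exact (hc x').symm)
  rw [hsum]
  refine Submodule.sum_mem _ fun j _ => le_iSup (fun j => (D.polesA A _).map (μ j)) j
    (Submodule.mem_map_of_mem (hN₀ _ (le_max_left _ _) _ ?_))
  rw [hw]
  exact fil_mono (by omega) (mul_mem_fil x.2.2 (he j))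

section BaseChange

variable {B : Type u} [CommRing B] [Algebra k B] (f : A →ₐ[k] B)

theorem CurveDatum.Surj.bc {M : D.Sub A} {n : ℤ} (h : D.Surj M n) : D.Surj (D.bc f M) n := by
  classical
  intro x
  obtain ⟨N, hN⟩ := exists_mem_fil x
  choose e he hee using fun i : ℤ => h (HahnSeries.single i (1 : A))
  refine ⟨∑ i ∈ Finset.Ico N n, x.coeff i • lsMap f.toRingHom (e i),
    D.mem_bc_of_span f (Submodule.sum_mem _ fun i _ =>
      Submodule.smul_mem _ _ (Submodule.subset_span ⟨e i, he i, rfl⟩)), fun j hj => ?_⟩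
  rw [HahnSeries.coeff_sub, HahnSeries.coeff_sum, sub_eq_zero]
  have hej : ∀ i : ℤ, (e i).coeff j = if i = j then 1 else 0 := fun i => by
    have := hee i j hj
    rw [HahnSeries.coeff_sub, sub_eq_zero] at this
    rw [← this]
    rcases eq_or_ne i j with h' | h'
    · rw [h', HahnSeries.coeff_single_same, if_pos rfl]
    · rw [HahnSeries.coeff_single_of_ne (Ne.symm h'), if_neg h']
  simp only [coeff_smul_fil, coeff_lsMap, hej, apply_ite f.toRingHom, map_one, map_zero,
    mul_ite, mul_one, mul_zero, Finset.sum_ite_eq', Finset.mem_Ico]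
  split_ifs with hNj
  · rfl
  · exact hN j (not_le.1 fun h' => hNj ⟨h', hj⟩)

/-- The sections of the base change are spanned by the sections. -/
theorem CurveDatum.kerMod_bc {M : D.Sub A} {n : ℤ} (h : D.Surj M n) :
    D.kerMod (D.bc f M) n =
      Submodule.span B (lsMap f.toRingHom '' (D.kerMod M n : Set (LaurentSeries A))) := by
  classical
  refine le_antisymm (fun y hy => ?_) (Submodule.span_le.2 ?_)
  · obtain ⟨π, hπ⟩ := CurveDatum.exists_retraction h
    choose e he hee using fun i : ℤ => h (HahnSeries.single i (1 : A))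
    obtain ⟨l, hl⟩ := Finsupp.mem_span_image_iff_linearCombination B |>.1
      (D.exists_sum_of_mem_bc f hy.1)
    obtain ⟨hls, hly⟩ := hl
    obtain ⟨N, hN⟩ : ∃ N, ∀ x ∈ l.support, x ∈ fil A N := by
      choose N hN using fun x : LaurentSeries A => exists_mem_fil x
      refine ⟨-∑ x ∈ l.support, |N x|, fun x hx => fil_mono ?_ (hN x)⟩
      have := Finset.single_le_sum (f := fun x => |N x|) (fun _ _ => abs_nonneg _) hx
      have := neg_abs_le (N x)
      omega
    let κ : LaurentSeries A → LaurentSeries A := fun x =>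
      x - ∑ i ∈ Finset.Ico N n, x.coeff i • e i
    have hκ : ∀ x ∈ l.support, κ x ∈ D.kerMod M n := by
      intro x hx
      refine ⟨sub_mem (hls hx) (Submodule.sum_mem (M.restrictScalars A) fun i _ =>
        Submodule.smul_mem _ _ (he i)), fun j hj => ?_⟩
      rw [HahnSeries.coeff_sub, HahnSeries.coeff_sum, sub_eq_zero]
      have hej : ∀ i : ℤ, (e i).coeff j = if i = j then 1 else 0 := fun i => by
        have := hee i j hj
        rw [HahnSeries.coeff_sub, sub_eq_zero] at this
        rw [← this]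
        rcases eq_or_ne i j with h' | h'
        · rw [h', HahnSeries.coeff_single_same, if_pos rfl]
        · rw [HahnSeries.coeff_single_of_ne (Ne.symm h'), if_neg h']
      simp only [coeff_smul_fil, hej, mul_ite, mul_one, mul_zero, Finset.sum_ite_eq', Finset.mem_Ico]
      split_ifs with hNj
      · rfl
      · exact hN x hx j (not_le.1 fun h' => hNj ⟨h', hj⟩)
    have hy' : y = ∑ x ∈ l.support, l x • lsMap f.toRingHom (κ x) := by
      have hyc : ∀ i ∈ Finset.Ico N n, ∑ x ∈ l.support, l x * f (x.coeff i) = 0 := fun i hi => by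
        have := hy.2 i (Finset.mem_Ico.1 hi).2
        rw [← hly, Finsupp.linearCombination_apply, Finsupp.sum, HahnSeries.coeff_sum] at this
        simpa [coeff_smul_fil] using this
      have : ∑ x ∈ l.support, l x •
          lsMap f.toRingHom (∑ i ∈ Finset.Ico N n, x.coeff i • e i) = 0 := by
        simp only [map_sum, lsMap_smul, Finset.smul_sum, smul_smul]
        rw [Finset.sum_comm]
        refine Finset.sum_eq_zero fun i hi => ?_
        rw [← Finset.sum_smul]
        exact (congrArg (· • lsMap f.toRingHom (e i)) (hyc i hi)).trans (zero_smul _ _)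
      simp only [κ, map_sub, smul_sub, Finset.sum_sub_distrib, this, sub_zero]
      rw [← hly, Finsupp.linearCombination_apply, Finsupp.sum]
    rw [hy']
    exact Submodule.sum_mem _ fun x hx =>
      Submodule.smul_mem _ _ (Submodule.subset_span ⟨κ x, hκ x hx, rfl⟩)
  · rintro _ ⟨x, hx, rfl⟩
    exact ⟨D.subset_bc f hx.1, lsMap_mem_fil _ hx.2⟩

end BaseChange

end FermatAgent.Jacobian
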