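import Fermat.Agent.Jacobian.Lat.Series
import Mathlib.RingTheory.Finiteness.Basic
import Mathlib.LinearAlgebra.Basis.VectorSpace

/-!
# The expansion of the ring of the affine curve over a base
-/

set_option autoImplicit false

noncomputable section

universe u

namespace FermatAgent.Jacobian

open scoped TensorProduct

variable {k : Type u} [Field k] (D : CurveDatum k)

theorem CurveDatum.exp_smul (c : k) (r : D.R) : D.exp (c • r) = c • D.exp r := by
  rw [Algebra.smul_def, map_mul, D.exp_algebraMap, C_mul_eq_smul']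

/-- Functions with poles of order at most `N`. -/
def CurveDatum.polesLE (N : ℤ) : Submodule k D.R where
  carrier := {r | D.exp r ∈ fil k (-N)}
  add_mem' {a b} ha hb := show D.exp (a + b) ∈ fil k (-N) by
    rw [map_add]; exact add_mem ha hb
  zero_mem' := show D.exp 0 ∈ fil k (-N) by rw [map_zero]; exact zero_mem _
  smul_mem' c r hr := show D.exp (c • r) ∈ fil k (-N) by
    rw [D.exp_smul]; exact Submodule.smul_mem _ c hr

theorem CurveDatum.polesLE_mono {N M : ℤ} (h : N ≤ M) : D.polesLE N ≤ D.polesLE M :=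
  fun _ hr => fil_mono (neg_le_neg h) hr

theorem CurveDatum.eq_zero_of_exp_mem_fil {r : D.R} (hr : D.exp r ∈ fil k 1) : r = 0 := by
  obtain ⟨c, rfl⟩ := D.const r fun i hi => hr i (by omega)
  have := hr 0 zero_lt_one
  rw [D.exp_algebraMap] at this
  simp at this
  rw [this, map_zero]

/-- Coefficients from the pole to the constant term. -/
def CurveDatum.poleWindow (N : ℤ) : D.polesLE N →ₗ[k] (Finset.Ico (-N) 1 → k) where
  toFun r := window (-N) 1 (D.exp r)
  map_add' r s := by rw [Submodule.coe_add, map_add, map_add]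
  map_smul' c r := by rw [Submodule.coe_smul, D.exp_smul, map_smul, RingHom.id_apply]

theorem CurveDatum.poleWindow_injective (N : ℤ) : Function.Injective (D.poleWindow N) :=
  (injective_iff_map_eq_zero (D.poleWindow N)).2 fun r hr =>
    Subtype.ext (D.eq_zero_of_exp_mem_fil (mem_fil_of_window_eq_zero r.2 hr))

instance CurveDatum.finite_polesLE (N : ℤ) : Module.Finite k (D.polesLE N) :=
  Module.Finite.of_injective _ (D.poleWindow_injective N)

variable (A : Type u) [CommRing A] [Algebra k A]

theorem CurveDatum.expA_tmul_eq (a : A) (r : D.R) : D.expA A (a ⊗ₜ r) = a • D.expR A r := by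
  rw [D.expA_tmul, C_mul_eq_smul']
  rfl

theorem CurveDatum.expR_eq (r : D.R) : D.expR A r = D.expA A (1 ⊗ₜ r) := by
  rw [D.expA_tmul_eq, one_smul]

theorem CurveDatum.expR_mul (r s : D.R) : D.expR A (r * s) = D.expR A r * D.expR A s := by
  simp only [CurveDatum.expR, map_mul]

@[simp] theorem CurveDatum.expR_one : D.expR A 1 = 1 := by simp only [CurveDatum.expR, map_one]

theorem CurveDatum.coeff_expR (r : D.R) (i : ℤ) :
    (D.expR A r).coeff i = algebraMap k A ((D.exp r).coeff i) := rfl

theorem CurveDatum.exists_isMonicAt_expR {r : D.R} (hr : r ≠ 0) :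
    ∃ i, IsMonicAt (D.expR A r) i := by
  have h : D.exp r ≠ 0 := (map_ne_zero_iff _ D.exp_injective).2 hr
  refine ⟨(D.exp r).order, IsMonicAt.lsMap _ ⟨fun _ hi =>
    HahnSeries.coeff_eq_zero_of_lt_order hi, Ne.isUnit ?_⟩⟩
  exact mt HahnSeries.coeff_order_eq_zero.1 h

theorem CurveDatum.exists_monic_below :
    ∃ n₁ : ℤ, ∀ i ≤ n₁, ∃ r : D.R, r ≠ 0 ∧ IsMonicAt (D.expR A r) i := by
  obtain ⟨n₀, h⟩ := D.exists_pole
  refine ⟨-n₀, fun i hi => ?_⟩
  obtain ⟨r, hr, hr'⟩ := h (-i) (by omega)
  rw [neg_neg] at hr hr'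
  exact ⟨r, fun h0 => hr (by rw [h0, map_zero, HahnSeries.coeff_zero]),
    IsMonicAt.lsMap (algebraMap k A) ⟨hr', Ne.isUnit hr⟩⟩

/-- The span of the functions with poles of order at most `N`. -/
def CurveDatum.polesA (N : ℤ) : Submodule A (D.RA A) :=
  Submodule.span A ((fun r => (1 : A) ⊗ₜ[k] r) '' (D.polesLE N : Set D.R))

theorem CurveDatum.tmul_mem_polesA {N : ℤ} (a : A) {r : D.R} (hr : r ∈ D.polesLE N) :
    a ⊗ₜ[k] r ∈ D.polesA A N := by
  rw [show a ⊗ₜ[k] r = a • ((1 : A) ⊗ₜ[k] r) by rw [TensorProduct.smul_tmul', smul_eq_mul, mul_one]]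
  exact Submodule.smul_mem _ a (Submodule.subset_span ⟨r, hr, rfl⟩)

theorem CurveDatum.polesA_mono {N M : ℤ} (h : N ≤ M) : D.polesA A N ≤ D.polesA A M :=
  Submodule.span_mono (Set.image_mono (D.polesLE_mono h))

theorem CurveDatum.exists_mem_polesA (x : D.RA A) (N : ℤ) :
    ∃ M, N ≤ M ∧ x ∈ D.polesA A M := by
  induction x using TensorProduct.induction_on with
  | zero => exact ⟨N, le_rfl, zero_mem _⟩
  | tmul a r =>
    obtain ⟨M, hM⟩ := exists_mem_fil (D.exp r)
    refine ⟨max N (-M), le_max_left _ _, D.tmul_mem_polesA A a ?_⟩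
    exact fil_mono (by omega) hM
  | add x y hx hy =>
    obtain ⟨M, hM, hx⟩ := hx
    obtain ⟨M', -, hy⟩ := hy
    exact ⟨max M M', le_max_of_le_left hM,
      add_mem (D.polesA_mono A (le_max_left _ _) hx) (D.polesA_mono A (le_max_right _ _) hy)⟩

theorem CurveDatum.expA_mem_fil {N : ℤ} {x : D.RA A} (hx : x ∈ D.polesA A N) :
    D.expA A x ∈ fil A (-N) := by
  induction hx using Submodule.span_induction with
  | mem y hy =>
    obtain ⟨r, hr, rfl⟩ := hy
    rw [← D.expR_eq]
    exact lsMap_mem_fil _ hr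
  | zero => rw [map_zero]; exact zero_mem _
  | add y z _ _ hy hz => rw [map_add]; exact add_mem hy hz
  | smul a y _ hy => rw [D.expA_smul]; exact Submodule.smul_mem _ a hy

theorem CurveDatum.fg_polesA (N : ℤ) : (D.polesA A N).FG := by
  obtain ⟨s, hs⟩ := Module.Finite.iff_fg.1 (D.finite_polesLE N)
  classical
  refine ⟨s.image fun r => (1 : A) ⊗ₜ[k] r,
    le_antisymm (Submodule.span_le.2 ?_) (Submodule.span_le.2 ?_)⟩
  · rw [Finset.coe_image]
    rintro _ ⟨r, hr, rfl⟩
    exact D.tmul_mem_polesA A 1 (hs ▸ Submodule.subset_span hr)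
  · rintro _ ⟨r, hr, rfl⟩
    rw [SetLike.mem_coe, ← hs] at hr
    simp only [Finset.coe_image, SetLike.mem_coe]
    induction hr using Submodule.span_induction with
    | mem z hz => exact Submodule.subset_span ⟨z, hz, rfl⟩
    | zero => rw [TensorProduct.tmul_zero]; exact zero_mem _
    | add y z _ _ hy hz => rw [TensorProduct.tmul_add]; exact add_mem hy hz
    | smul c y _ hy =>
      rw [TensorProduct.tmul_smul, ← algebraMap_smul A c]
      exact Submodule.smul_mem _ _ hy

/-- Triangularity: elements with few poles come from functions with few poles. -/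
theorem CurveDatum.exists_bound :
    ∃ N₀ : ℤ, ∀ N ≥ N₀, ∀ x : D.RA A, D.expA A x ∈ fil A (-N) → x ∈ D.polesA A N := by
  obtain ⟨N₀, hpole⟩ := D.exists_pole
  refine ⟨N₀, fun N hN x hx => ?_⟩
  obtain ⟨M, hM, hxM⟩ := D.exists_mem_polesA A x N
  induction M, hM using Int.leInduction with
  | base => exact hxM
  | succ M hM ih =>
    refine ih ?_
    obtain ⟨π, hπ, hπ'⟩ := hpole (M + 1) (by omega)
    have key : ∀ y ∈ D.polesA A (M + 1), ∃ a : A, y - a ⊗ₜ[k] π ∈ D.polesA A M := by
      intro y hy
      induction hy using Submodule.span_induction with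
      | mem z hz =>
        obtain ⟨r, hr, rfl⟩ := hz
        set c := (D.exp r).coeff (-(M + 1)) / (D.exp π).coeff (-(M + 1))
        refine ⟨algebraMap k A c, ?_⟩
        rw [Algebra.algebraMap_eq_smul_one, TensorProduct.smul_tmul, ← TensorProduct.tmul_sub]
        refine D.tmul_mem_polesA A 1 fun i hi => ?_
        rw [map_sub, D.exp_smul, HahnSeries.coeff_sub, coeff_smul_fil]
        rcases eq_or_lt_of_le (show i ≤ -(M + 1) by omega) with rfl | h
        · rw [div_mul_cancel₀ _ hπ, sub_self]
        · rw [hπ' i h, hr i h, mul_zero, sub_zero]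
      | zero => exact ⟨0, by rw [TensorProduct.zero_tmul, sub_zero]; exact zero_mem _⟩
      | add y z _ _ hy hz =>
        obtain ⟨a, ha⟩ := hy
        obtain ⟨b, hb⟩ := hz
        exact ⟨a + b, by rw [TensorProduct.add_tmul, add_sub_add_comm]; exact add_mem ha hb⟩
      | smul b y _ hy =>
        obtain ⟨a, ha⟩ := hy
        refine ⟨b * a, ?_⟩
        rw [← smul_eq_mul, ← TensorProduct.smul_tmul', ← smul_sub]
        exact Submodule.smul_mem _ b ha
    obtain ⟨a, ha⟩ := key x hxM
    have h1 := D.expA_mem_fil A ha (-(M + 1)) (by omega)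
    rw [map_sub, HahnSeries.coeff_sub, hx _ (by omega), D.expA_tmul_eq, coeff_smul_fil,
      zero_sub, neg_eq_zero] at h1
    rw [((Ne.isUnit hπ).map (algebraMap k A)).mul_left_eq_zero.1 h1, TensorProduct.zero_tmul,
      sub_zero] at ha
    exact ha

/-- No element of the ring of the affine curve has a zero at the point. -/
theorem CurveDatum.eq_zero_of_expA_mem_fil {x : D.RA A} (hx : D.expA A x ∈ fil A 1) : x = 0 := by
  classical
  obtain ⟨N₀, hN₀⟩ := D.exists_bound A
  set N := max N₀ 0
  have hxN : x ∈ D.polesA A N := hN₀ N (le_max_left _ _) x (fil_mono (by omega) hx)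
  let b := Module.finBasis k (D.polesLE N)
  have hspan : D.polesA A N ≤
      Submodule.span A (Set.range fun i => (1 : A) ⊗ₜ[k] (b i : D.R)) := by
    refine Submodule.span_le.2 ?_
    rintro _ ⟨r, hr, rfl⟩
    have h := congrArg Subtype.val (b.sum_repr ⟨r, hr⟩)
    rw [Submodule.coe_sum] at h
    show (1 : A) ⊗ₜ[k] r ∈ _
    rw [← show _ = r from h, TensorProduct.tmul_sum]
    refine Submodule.sum_mem _ fun i _ => ?_
    rw [Submodule.coe_smul, TensorProduct.tmul_smul, ← algebraMap_smul A]
    exact Submodule.smul_mem _ _ (Submodule.subset_span ⟨i, rfl⟩)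
  obtain ⟨c, hc⟩ := (Submodule.mem_span_range_iff_exists_fun A).1 (hspan hxN)
  obtain ⟨l, hl⟩ :=
    LinearMap.exists_leftInverse_of_injective (D.poleWindow N)
      (LinearMap.ker_eq_bot.2 (D.poleWindow_injective N))
  have hcoef : ∀ j : Finset.Ico (-N) 1,
      ∑ i, c i * algebraMap k A (D.poleWindow N (b i) j) = 0 := fun j => by
    have h := congrArg (fun z : LaurentSeries A => z.coeff (j : ℤ))
      (congrArg (D.expA A) hc)
    simp only [map_sum, D.expA_smul, ← D.expR_eq, HahnSeries.coeff_sum, coeff_smul_fil,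
      D.coeff_expR] at h
    rw [hx _ (Finset.mem_Ico.1 j.2).2] at h
    exact h
  rw [← hc]
  refine Finset.sum_eq_zero fun i₀ _ => ?_
  have hδ : ∀ i, ∑ j, D.poleWindow N (b i) j * b.repr (l (Pi.single j 1)) i₀ =
      if i = i₀ then 1 else 0 := fun i => by
    have h1 : l (D.poleWindow N (b i)) = b i := LinearMap.congr_fun hl (b i)
    rw [pi_eq_sum_univ' (D.poleWindow N (b i))] at h1
    have h2 := congrArg (fun z => b.repr z i₀) h1
    simp only [map_sum, map_smul, Finsupp.coe_finsetSum, Finset.sum_apply, Finsupp.smul_apply,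
      smul_eq_mul, Module.Basis.repr_self, Finsupp.single_apply] at h2
    exact h2
  have : c i₀ = 0 := by
    calc c i₀ = ∑ i, c i * algebraMap k A (if i = i₀ then 1 else 0) := by
          simp [apply_ite (algebraMap k A)]
      _ = ∑ j, (∑ i, c i * algebraMap k A (D.poleWindow N (b i) j)) *
            algebraMap k A (b.repr (l (Pi.single j 1)) i₀) := by
          simp only [← hδ, map_sum, map_mul, Finset.mul_sum, Finset.sum_mul, mul_assoc]
          exact Finset.sum_comm
      _ = 0 := by simp [hcoef]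
  rw [this, zero_smul]

theorem CurveDatum.expA_injective : Function.Injective (D.expA A) :=
  (injective_iff_map_eq_zero _).2 fun x hx =>
    D.eq_zero_of_expA_mem_fil A (by rw [hx]; exact zero_mem _)

theorem CurveDatum.mem_one_iff {x : LaurentSeries A} :
    x ∈ (1 : D.Sub A) ↔ ∃ p, D.expA A p = x := Submodule.mem_one

theorem CurveDatum.expR_mem_one (r : D.R) : D.expR A r ∈ (1 : D.Sub A) :=
  (D.mem_one_iff A).2 ⟨_, (D.expR_eq A r).symm⟩

theorem CurveDatum.smul_def (p : D.RA A) (x : LaurentSeries A) : p • x = D.expA A p * x := rfl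

variable {A} {B : Type u} [CommRing B] [Algebra k B]

/-- Change of coefficients on the ring of the affine curve. -/
def CurveDatum.mapRA (f : A →ₐ[k] B) : D.RA A →ₐ[k] D.RA B :=
  Algebra.TensorProduct.map f (AlgHom.id k D.R)

theorem CurveDatum.lsMap_expR (f : A →ₐ[k] B) (r : D.R) :
    lsMap f.toRingHom (D.expR A r) = D.expR B r := by
  rw [CurveDatum.expR, lsMap_comp, show f.toRingHom.comp (algebraMap k A) = algebraMap k B from
    f.comp_algebraMap]
  rfl

theorem CurveDatum.lsMap_expA (f : A →ₐ[k] B) (x : D.RA A) :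
    lsMap f.toRingHom (D.expA A x) = D.expA B (D.mapRA f x) := by
  induction x using TensorProduct.induction_on with
  | zero => simp
  | tmul a r =>
    rw [CurveDatum.mapRA, Algebra.TensorProduct.map_tmul, D.expA_tmul_eq, D.expA_tmul_eq,
      lsMap_smul, D.lsMap_expR]
    rfl
  | add x y hx hy => simp only [map_add, hx, hy]

theorem CurveDatum.lsMap_smul_RA (f : A →ₐ[k] B) (p : D.RA A) (x : LaurentSeries A) :
    lsMap f.toRingHom (p • x) = D.mapRA f p • lsMap f.toRingHom x := by
  rw [D.smul_def, D.smul_def, map_mul, D.lsMap_expA]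

end FermatAgent.Jacobian
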