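import Mathlib.RingTheory.LaurentSeries
import Mathlib.RingTheory.PicardGroup
import Mathlib.RingTheory.DedekindDomain.Basic
import Mathlib.RingTheory.FiniteType

/-!
# Lattices of Laurent series

A `CurveDatum` is the ring `R` of an affine curve `C - P` with the expansion at `P`. A line bundle
on `C_A` trivialised near `P` becomes a lattice: an invertible `A ⊗ R`-submodule of `A((t))`.
-/

set_option autoImplicit false

noncomputable section

universe u

namespace FermatAgent.Jacobian

open scoped TensorProduct

variable (k : Type u) [Field k]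

/-- The ring of a curve minus one point, with its expansion at that point. -/
structure CurveDatum where
  R : Type u
  [commRing : CommRing R]
  [algebra : Algebra k R]
  [domain : IsDomain R]
  [dedekind : IsDedekindDomain R]
  [finiteType : Algebra.FiniteType k R]
  exp : R →+* LaurentSeries k
  exp_injective : Function.Injective exp
  exp_algebraMap : ∀ c : k, exp (algebraMap k R c) = HahnSeries.C c
  const : ∀ r : R, (∀ i < 0, (exp r).coeff i = 0) → r ∈ Set.range (algebraMap k R)
  exists_pole : ∃ n₀ : ℤ, ∀ n ≥ n₀, ∃ r : R, (exp r).coeff (-n) ≠ 0 ∧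
    ∀ i < -n, (exp r).coeff i = 0

attribute [instance] CurveDatum.commRing CurveDatum.algebra CurveDatum.domain CurveDatum.dedekind
  CurveDatum.finiteType

variable {k} (D : CurveDatum k) (A : Type u) [CommRing A] [Algebra k A]

/-- The ring of the affine curve over `A`. -/
abbrev CurveDatum.RA : Type u := A ⊗[k] D.R

/-- Change of coefficients. -/
def lsMap {A B : Type u} [CommRing A] [CommRing B] (f : A →+* B) :
    LaurentSeries A →+* LaurentSeries B where
  toFun x := x.map f
  map_one' := HahnSeries.map_one (f := f.toMonoidWithZeroHom)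
  map_mul' x y := HahnSeries.map_mul (f := f.toNonUnitalRingHom) (x := x) (y := y)
  map_zero' := by ext; simp
  map_add' x y := by ext; simp

@[simp] theorem coeff_lsMap {A B : Type u} [CommRing A] [CommRing B] (f : A →+* B)
    (x : LaurentSeries A) (i : ℤ) : (lsMap f x).coeff i = f (x.coeff i) := rfl

/-- The constants, as a structure of algebra used only to build the expansion. -/
@[reducible] def constAlgebra : Algebra k (LaurentSeries A) :=
  ((HahnSeries.C : A →+* LaurentSeries A).comp (algebraMap k A)).toAlgebra

theorem lsMap_C {B : Type u} [CommRing B] (f : A →+* B) (a : A) :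
    lsMap f (HahnSeries.C a) = HahnSeries.C (f a) := by
  ext i
  rw [coeff_lsMap]
  rcases eq_or_ne i 0 with rfl | h <;> simp [*]

/-- An expansion `S → k((t))` extended to `A ⊗ S → A((t))`. -/
def tensorExp {S : Type u} [CommRing S] [Algebra k S] (e : S →+* LaurentSeries k)
    (he : ∀ a : k, e (algebraMap k S a) = HahnSeries.C a) (A : Type u) [CommRing A]
    [Algebra k A] :
    A ⊗[k] S →+* LaurentSeries A :=
  letI := constAlgebra (k := k) A
  (Algebra.TensorProduct.productMap (R := k) (A := A) (B := S) (S := LaurentSeries A)
    ⟨(HahnSeries.C : A →+* LaurentSeries A), fun _ => rfl⟩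
    ⟨(lsMap (algebraMap k A)).comp e, fun c => by
      show lsMap (algebraMap k A) (e (algebraMap k S c)) = _
      rw [he, lsMap_C]
      rfl⟩).toRingHom

theorem tensorExp_tmul {S : Type u} [CommRing S] [Algebra k S] (e : S →+* LaurentSeries k)
    (he : ∀ a : k, e (algebraMap k S a) = HahnSeries.C a) (A : Type u) [CommRing A]
    [Algebra k A]
    (a : A) (s : S) :
    tensorExp e he A (a ⊗ₜ s) = HahnSeries.C a * lsMap (algebraMap k A) (e s) :=
  letI := constAlgebra (k := k) A
  Algebra.TensorProduct.productMap_apply_tmul _ _ _ _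

/-- The expansion over `A`. -/
def CurveDatum.expA : D.RA A →+* LaurentSeries A :=
  tensorExp D.exp D.exp_algebraMap A

theorem CurveDatum.expA_tmul (a : A) (r : D.R) :
    D.expA A (a ⊗ₜ r) = HahnSeries.C a * lsMap (algebraMap k A) (D.exp r) :=
  tensorExp_tmul _ _ A a r

/-- `A((t))` as an algebra over the ring of the affine curve. -/
instance CurveDatum.algebraLS : Algebra (D.RA A) (LaurentSeries A) := (D.expA A).toAlgebra

/-- The expansion of `r` over `A`. -/
def CurveDatum.expR (r : D.R) : LaurentSeries A := lsMap (algebraMap k A) (D.exp r)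

/-- The submodules of `A((t))` stable under the ring of the affine curve. -/
abbrev CurveDatum.Sub : Type u := Submodule (D.RA A) (LaurentSeries A)

/-- Series with no terms below `n`. -/
def fil (n : ℤ) : Submodule A (LaurentSeries A) where
  carrier := {x | ∀ i < n, x.coeff i = 0}
  add_mem' hx hy i hi := by simp [hx i hi, hy i hi]
  zero_mem' i _ := by simp
  smul_mem' a x hx i hi := by simp [hx i hi]

theorem mem_fil {n : ℤ} {x : LaurentSeries A} : x ∈ fil A n ↔ ∀ i < n, x.coeff i = 0 := Iff.rfl

/-- `u` is a unit power series. -/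
def IsUnitSeries (u : LaurentSeries A) : Prop :=
  IsUnit (u.coeff 0) ∧ u ∈ fil A 0

variable {A}

/-- A lattice: invertible, and containing a function times a unit series. -/
structure CurveDatum.IsLat (M : D.Sub A) : Prop where
  isUnit : IsUnit M
  exists_mem : ∃ (r : D.R) (u : LaurentSeries A), r ≠ 0 ∧ IsUnitSeries A u ∧ D.expR A r * u ∈ M

/-- Lattices up to a unit series. -/
def CurveDatum.Equiv (M M' : D.Sub A) : Prop :=
  ∃ u : LaurentSeries A, IsUnitSeries A u ∧ M' = M * Submodule.span (D.RA A) {u}

/-- Multiplication by `t ^ n`. -/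
def CurveDatum.twist (n : ℤ) (M : D.Sub A) : D.Sub A :=
  M * Submodule.span (D.RA A) {HahnSeries.single n (1 : A)}

/-- The base change: the span of the image. -/
def CurveDatum.bc {B : Type u} [CommRing B] [Algebra k B] (f : A →ₐ[k] B) (M : D.Sub A) : D.Sub B :=
  Submodule.span (D.RA B) (lsMap f.toRingHom '' (M : Set (LaurentSeries A)))

/-- Surjectivity at level `n`: the first cohomology vanishes. -/
def CurveDatum.Surj (M : D.Sub A) (n : ℤ) : Prop :=
  ∀ x : LaurentSeries A, ∃ m ∈ M, x - m ∈ fil A n

/-- Complementary to the series without terms below `n`: no cohomology. -/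
def CurveDatum.Compl (M : D.Sub A) (n : ℤ) : Prop :=
  D.Surj M n ∧ ∀ m ∈ M, m ∈ fil A n → m = 0

/-- A point of the big cell. -/
def CurveDatum.InCell (M : D.Sub A) : Prop :=
  (1 : LaurentSeries A) ∈ M ∧ D.Compl M 1

end FermatAgent.Jacobian
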