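import Fermat.Agent.Jacobian.Lat.Datum

/-!
# Leading terms of Laurent series over a ring
-/

set_option autoImplicit false

noncomputable section

universe u

namespace FermatAgent.Jacobian

open scoped TensorProduct

variable {k : Type u} [Field k] (D : CurveDatum k) (A : Type u) [CommRing A] [Algebra k A]

theorem C_mul_eq_smul' (a : A) (z : LaurentSeries A) : HahnSeries.C a * z = a • z := by
  ext i
  rw [HahnSeries.C_apply, HahnSeries.coeff_single_zero_mul, HahnSeries.coeff_smul, smul_eq_mul]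

instance isScalarTower_self : IsScalarTower A (LaurentSeries A) (LaurentSeries A) :=
  ⟨fun a x y => by rw [smul_eq_mul, smul_eq_mul, ← C_mul_eq_smul', ← C_mul_eq_smul', mul_assoc]⟩

instance smulCommClass_self : SMulCommClass A (LaurentSeries A) (LaurentSeries A) :=
  ⟨fun a x y => by rw [smul_eq_mul, smul_eq_mul, ← C_mul_eq_smul', ← C_mul_eq_smul', mul_left_comm]⟩

theorem CurveDatum.expA_smul (a : A) (x : D.RA A) : D.expA A (a • x) = a • D.expA A x := by
  have h : a • x = (a ⊗ₜ[k] (1 : D.R)) * x := by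
    induction x using TensorProduct.induction_on with
    | zero => simp
    | tmul b r => rw [TensorProduct.smul_tmul', Algebra.TensorProduct.tmul_mul_tmul, one_mul,
        smul_eq_mul]
    | add x y hx hy => rw [smul_add, hx, hy, mul_add]
  rw [h, map_mul, D.expA_tmul, map_one, map_one, mul_one, C_mul_eq_smul']

instance CurveDatum.isScalarTower_ls : IsScalarTower A (D.RA A) (LaurentSeries A) :=
  ⟨fun a x y => by
    show D.expA A (a • x) * y = a • (D.expA A x * y)
    rw [D.expA_smul, ← C_mul_eq_smul', ← C_mul_eq_smul', mul_assoc]⟩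

variable {A}

theorem fil_mono {n m : ℤ} (h : n ≤ m) : fil A m ≤ fil A n :=
  fun _ hx i hi => hx i (lt_of_lt_of_le hi h)

theorem exists_mem_fil (x : LaurentSeries A) : ∃ N : ℤ, x ∈ fil A N :=
  ⟨x.order, fun _ hi => HahnSeries.coeff_eq_zero_of_lt_order hi⟩

theorem single_mem_fil (n : ℤ) (a : A) : HahnSeries.single n a ∈ fil A n :=
  fun _ hi => HahnSeries.coeff_single_of_ne hi.ne

theorem mul_mem_fil {i j : ℤ} {x y : LaurentSeries A} (hx : x ∈ fil A i) (hy : y ∈ fil A j) :
    x * y ∈ fil A (i + j) := by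
  intro n hn
  rw [HahnSeries.coeff_mul]
  refine Finset.sum_eq_zero fun ab hab => ?_
  rw [Finset.mem_antidiagonal] at hab
  by_cases h : ab.1 < i
  · rw [hx _ h, zero_mul]
  · rw [hy _ (by omega), mul_zero]

theorem coeff_mul_of_mem_fil {i j : ℤ} {x y : LaurentSeries A} (hx : x ∈ fil A i)
    (hy : y ∈ fil A j) : (x * y).coeff (i + j) = x.coeff i * y.coeff j := by
  rw [HahnSeries.coeff_mul]
  refine Finset.sum_eq_single (i, j) (fun ab hab hne => ?_) fun h => ?_
  · rw [Finset.mem_antidiagonal] at hab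
    by_cases h : ab.1 < i
    · rw [hx _ h, zero_mul]
    · rw [hy _ (lt_of_le_of_ne (by omega) fun e => hne (Prod.ext (by omega) e)), mul_zero]
  · rw [Finset.mem_antidiagonal] at h
    by_contra hne
    exact h ⟨left_ne_zero_of_mul hne, right_ne_zero_of_mul hne, rfl⟩

/-- No terms below `i` and a unit at `i`. -/
def IsMonicAt (x : LaurentSeries A) (i : ℤ) : Prop :=
  x ∈ fil A i ∧ IsUnit (x.coeff i)

theorem isUnitSeries_iff {x : LaurentSeries A} : IsUnitSeries A x ↔ IsMonicAt x 0 :=
  ⟨fun h => ⟨h.2, h.1⟩, fun h => ⟨h.2, h.1⟩⟩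

theorem isMonicAt_single (n : ℤ) : IsMonicAt (HahnSeries.single n (1 : A)) n :=
  ⟨single_mem_fil n 1, by rw [HahnSeries.coeff_single_same]; exact isUnit_one⟩

theorem isUnitSeries_one : IsUnitSeries A (1 : LaurentSeries A) :=
  isUnitSeries_iff.2 (isMonicAt_single 0)

theorem IsMonicAt.mul {x y : LaurentSeries A} {i j : ℤ} (hx : IsMonicAt x i)
    (hy : IsMonicAt y j) : IsMonicAt (x * y) (i + j) :=
  ⟨mul_mem_fil hx.1 hy.1, by rw [coeff_mul_of_mem_fil hx.1 hy.1]; exact hx.2.mul hy.2⟩

theorem IsUnitSeries.mul {x y : LaurentSeries A} (hx : IsUnitSeries A x)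
    (hy : IsUnitSeries A y) : IsUnitSeries A (x * y) :=
  isUnitSeries_iff.2 (by simpa using (isUnitSeries_iff.1 hx).mul (isUnitSeries_iff.1 hy))

theorem IsMonicAt.exists_inv {x : LaurentSeries A} {i : ℤ} (hx : IsMonicAt x i) :
    ∃ y : LaurentSeries A, IsMonicAt y (-i) ∧ x * y = 1 := by
  let f : PowerSeries A := PowerSeries.mk fun n => x.coeff (i + n)
  have hfx : HahnSeries.single i (1 : A) * HahnSeries.ofPowerSeries ℤ A f = x := by
    ext m
    obtain ⟨d, rfl⟩ : ∃ d, m = d + i := ⟨m - i, by omega⟩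
    rw [HahnSeries.coeff_single_mul_add, one_mul]
    rcases lt_or_ge d 0 with hd | hd
    · rw [hx.1 _ (by omega), PowerSeries.coeff_coe, if_pos hd]
    · lift d to ℕ using hd
      rw [HahnSeries.ofPowerSeries_apply_coeff, PowerSeries.coeff_mk, add_comm]
  have hf : IsUnit f := PowerSeries.isUnit_iff_constantCoeff.2 (by
    rw [← PowerSeries.coeff_zero_eq_constantCoeff_apply, PowerSeries.coeff_mk]
    simpa using hx.2)
  obtain ⟨g, hg⟩ := hf.exists_right_inv
  have hg0 : IsUnit (PowerSeries.constantCoeff g) :=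
    IsUnit.of_mul_eq_one_right (PowerSeries.constantCoeff f) (by rw [← map_mul, hg, map_one])
  have hgm : IsMonicAt (HahnSeries.ofPowerSeries ℤ A g) 0 := by
    refine ⟨fun m hm => by rw [PowerSeries.coeff_coe, if_pos hm], ?_⟩
    rw [show (0 : ℤ) = ((0 : ℕ) : ℤ) from rfl, HahnSeries.ofPowerSeries_apply_coeff,
      PowerSeries.coeff_zero_eq_constantCoeff_apply]
    exact hg0
  refine ⟨HahnSeries.single (-i) 1 * HahnSeries.ofPowerSeries ℤ A g,
    by simpa using (isMonicAt_single (-i)).mul hgm, ?_⟩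
  rw [← hfx, mul_mul_mul_comm, HahnSeries.single_mul_single, add_neg_cancel, one_mul, ← map_mul,
    hg]
  simp

theorem IsMonicAt.isUnit {x : LaurentSeries A} {i : ℤ} (hx : IsMonicAt x i) : IsUnit x := by
  obtain ⟨y, -, hy⟩ := hx.exists_inv
  exact IsUnit.of_mul_eq_one y hy

theorem IsUnitSeries.exists_inv {x : LaurentSeries A} (hx : IsUnitSeries A x) :
    ∃ y, IsUnitSeries A y ∧ x * y = 1 := by
  obtain ⟨y, hy, h⟩ := (isUnitSeries_iff.1 hx).exists_inv
  exact ⟨y, isUnitSeries_iff.2 (by simpa using hy), h⟩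

/-- Multiplication by a monic series shifts the filtration exactly. -/
theorem IsMonicAt.mul_mem_fil_iff {c : LaurentSeries A} {d : ℤ} (hc : IsMonicAt c d)
    {x : LaurentSeries A} {n : ℤ} : x * c ∈ fil A (n + d) ↔ x ∈ fil A n := by
  refine ⟨fun h => ?_, fun h => mul_mem_fil h hc.1⟩
  obtain ⟨y, hy, hcy⟩ := hc.exists_inv
  have := mul_mem_fil h hy.1
  rwa [mul_assoc, hcy, mul_one, add_neg_cancel_right] at this

theorem coeff_smul_fil (a : A) (x : LaurentSeries A) (i : ℤ) :
    (a • x).coeff i = a * x.coeff i := by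
  rw [HahnSeries.coeff_smul, smul_eq_mul]

/-- Division by monic series: everything is congruent to a submodule with monic elements at all
orders below `n`. -/
theorem exists_sub_mem_fil (S : Submodule A (LaurentSeries A)) {N n : ℤ}
    (hS : ∀ i, N ≤ i → i < n → ∃ e ∈ S, IsMonicAt e i) {x : LaurentSeries A} (hx : x ∈ fil A N) :
    ∃ s ∈ S, x - s ∈ fil A n := by
  obtain ⟨d, hd⟩ : ∃ d, d = (n - N).toNat := ⟨_, rfl⟩
  induction d generalizing N x with
  | zero => exact ⟨0, zero_mem S, by rw [sub_zero]; exact fil_mono (by omega) hx⟩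
  | succ d ih =>
    obtain ⟨e, he, hem⟩ := hS N le_rfl (by omega)
    obtain ⟨b, hb⟩ := hem.2.exists_left_inv
    set a := x.coeff N * b
    have hx' : x - a • e ∈ fil A (N + 1) := fun i hi => by
      rw [HahnSeries.coeff_sub, coeff_smul_fil]
      rcases lt_or_eq_of_le (Int.lt_add_one_iff.1 hi) with h | rfl
      · rw [hx i h, hem.1 i h, mul_zero, sub_zero]
      · rw [mul_assoc, hb, mul_one, sub_self]
    obtain ⟨s, hs, hs'⟩ := ih (fun i hi => hS i (by omega)) hx' (by omega)
    exact ⟨a • e + s, add_mem (S.smul_mem a he) hs, by rwa [← sub_sub]⟩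

/-- The coefficients in `[N, n)`. -/
def window (N n : ℤ) : LaurentSeries A →ₗ[A] (Finset.Ico N n → A) where
  toFun x i := x.coeff i
  map_add' _ _ := funext fun _ => HahnSeries.coeff_add
  map_smul' a x := funext fun _ => coeff_smul_fil a x _

theorem mem_fil_of_window_eq_zero {N n : ℤ} {x : LaurentSeries A} (hx : x ∈ fil A N)
    (h : window N n x = 0) : x ∈ fil A n := fun i hi => by
  by_cases hN : N ≤ i
  · exact congrFun h ⟨i, Finset.mem_Ico.2 ⟨hN, hi⟩⟩
  · exact hx i (by omega)

theorem window_eq_zero_of_mem_fil {N n : ℤ} {x : LaurentSeries A} (hx : x ∈ fil A n) :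
    window N n x = 0 := funext fun i => hx i (Finset.mem_Ico.1 i.2).2

section Map

variable {B : Type u} [CommRing B] (f : A →+* B)

theorem lsMap_mem_fil {n : ℤ} {x : LaurentSeries A} (hx : x ∈ fil A n) :
    lsMap f x ∈ fil B n := fun i hi => by rw [coeff_lsMap, hx i hi, map_zero]

theorem IsMonicAt.lsMap {x : LaurentSeries A} {i : ℤ} (hx : IsMonicAt x i) :
    IsMonicAt (Jacobian.lsMap f x) i :=
  ⟨lsMap_mem_fil f hx.1, hx.2.map f⟩

theorem IsUnitSeries.lsMap {x : LaurentSeries A} (hx : IsUnitSeries A x) :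
    IsUnitSeries B (Jacobian.lsMap f x) :=
  ⟨hx.1.map f, lsMap_mem_fil f hx.2⟩

theorem lsMap_single (n : ℤ) (a : A) :
    lsMap f (HahnSeries.single n a) = HahnSeries.single n (f a) := by
  ext i
  rw [coeff_lsMap]
  rcases eq_or_ne i n with rfl | h <;> simp [*]

theorem lsMap_smul (a : A) (x : LaurentSeries A) : lsMap f (a • x) = f a • lsMap f x := by
  ext i
  rw [coeff_lsMap, coeff_smul_fil, coeff_smul_fil, coeff_lsMap, map_mul]

theorem lsMap_comp {E : Type u} [CommRing E] (g : B →+* E) (x : LaurentSeries A) :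
    lsMap g (lsMap f x) = lsMap (g.comp f) x := by
  ext i; simp

end Map

end FermatAgent.Jacobian
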