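import Fermat.Agent.Jacobian.Lat.Finite
import Mathlib.RingTheory.TensorProduct.Free

/-!
# The sections commute with change of coefficients
-/

set_option autoImplicit false

noncomputable section

universe u

namespace FermatAgent.Jacobian

open scoped TensorProduct

variable {k : Type u} [Field k] (D : CurveDatum k) {A : Type u} [CommRing A] [Algebra k A]
  (B : Type u) [CommRing B] [Algebra k B] [Algebra A B] [IsScalarTower k A B]

/-- Change of coefficients as a linear map. -/
def lsLin : LaurentSeries A →ₗ[A] LaurentSeries B where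
  toFun := lsMap (IsScalarTower.toAlgHom k A B).toRingHom
  map_add' := map_add _
  map_smul' a x := by
    rw [lsMap_smul, RingHom.id_apply]
    exact algebraMap_smul B a _

/-- The comparison map. -/
def CurveDatum.cmpMap (M : D.Sub A) (n : ℤ) : B ⊗[A] D.kerMod M n →ₗ[B] LaurentSeries B :=
  LinearMap.liftBaseChange B ((lsLin (k := k) B).comp (D.kerMod M n).subtype)

theorem CurveDatum.cmpMap_tmul (M : D.Sub A) (n : ℤ) (b : B) (x : D.kerMod M n) :
    D.cmpMap B M n (b ⊗ₜ x) = b • lsMap (IsScalarTower.toAlgHom k A B).toRingHom x := by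
  rw [CurveDatum.cmpMap, LinearMap.liftBaseChange_tmul]
  rfl

theorem CurveDatum.range_cmpMap {M : D.Sub A} {n : ℤ} (h : D.Surj M n) :
    LinearMap.range (D.cmpMap B M n) = D.kerMod (D.bc (IsScalarTower.toAlgHom k A B) M) n := by
  rw [CurveDatum.cmpMap, LinearMap.range_liftBaseChange,
    D.kerMod_bc (IsScalarTower.toAlgHom k A B) h]
  congr 1
  ext y
  simp only [SetLike.mem_coe, LinearMap.mem_range, Set.mem_image]
  exact ⟨fun ⟨x, hx⟩ => ⟨x, x.2, hx⟩, fun ⟨x, hx, hy⟩ => ⟨⟨x, hx⟩, hy⟩⟩

theorem CurveDatum.injective_cmpMap {M : D.Sub A} (hM : IsUnit M) {n : ℤ} (h : D.Surj M n) :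
    Function.Injective (D.cmpMap B M n) := by
  classical
  obtain ⟨J, _, m, w, c, hm, hw, hc⟩ := D.exists_frame hM
  obtain ⟨π, hπ⟩ := CurveDatum.exists_retraction h
  set φ := IsScalarTower.toAlgHom k A B
  let μ : J → D.RA A →ₗ[A] M := fun j =>
    (LinearMap.toSpanSingleton (D.RA A) M ⟨m j, hm j⟩).restrictScalars A
  let i : D.kerMod M n →ₗ[A] M :=
    { toFun := fun x => ⟨x, x.2.1⟩
      map_add' := fun _ _ => rfl
      map_smul' := fun _ _ => rfl }
  have hsum : ∀ x : M, ∑ j, (μ j).comp ((c j).restrictScalars A) x = x := fun x => Subtype.ext (by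
    rw [Submodule.coe_sum]
    exact hc x)
  let e := TensorProduct.AlgebraTensorModule.cancelBaseChange k A B B D.R
  let Φ : J → B ⊗[A] D.kerMod M n →ₗ[B] D.RA B := fun j =>
    e.toLinearMap.comp (LinearMap.baseChange B (((c j).restrictScalars A).comp i))
  have hΦ : ∀ (j : J) (z : B ⊗[A] D.kerMod M n),
      D.expA B (Φ j z) = D.cmpMap B M n z * lsMap φ.toRingHom (w j) := by
    intro j z
    induction z using TensorProduct.induction_on with
    | zero => simp
    | add x y hx hy => simp only [map_add, hx, hy, add_mul]
    | tmul b x =>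
      rw [D.cmpMap_tmul, smul_mul_assoc, ← map_mul,
        show (x : LaurentSeries A) * w j = D.expA A (c j (i x)) from (hw j (i x)).symm,
        D.lsMap_expA φ]
      show D.expA B (e (b ⊗ₜ[A] c j (i x))) = _
      generalize c j (i x) = p
      induction p using TensorProduct.induction_on with
      | zero => simp
      | add p q hp hq => rw [TensorProduct.tmul_add, map_add, map_add, hp, hq, map_add, map_add,
          smul_add]
      | tmul a r =>
        rw [TensorProduct.AlgebraTensorModule.cancelBaseChange_tmul, CurveDatum.mapRA,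
          Algebra.TensorProduct.map_tmul, D.expA_tmul_eq, D.expA_tmul_eq, AlgHom.id_apply, smul_smul]
        congr 1
        rw [Algebra.smul_def, mul_comm]
        rfl
  refine (injective_iff_map_eq_zero _).2 fun z hz => ?_
  have h0 : ∀ j, LinearMap.baseChange B (((c j).restrictScalars A).comp i) z = 0 := fun j =>
    e.injective (by
      rw [map_zero]
      exact D.expA_injective B (by rw [map_zero]; exact (hΦ j z).trans (by rw [hz, zero_mul])))
  have hid : π.comp ((∑ j, (μ j).comp ((c j).restrictScalars A)).comp i) = LinearMap.id :=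
    LinearMap.ext fun x => by
      rw [LinearMap.comp_apply, LinearMap.comp_apply, LinearMap.coe_sum, Finset.sum_apply, hsum]
      exact hπ x
  have := LinearMap.congr_fun (congrArg (LinearMap.baseChange B) hid) z
  rw [LinearMap.baseChange_id, LinearMap.id_apply] at this
  rw [← this, LinearMap.baseChange_comp, LinearMap.comp_apply]
  convert map_zero (LinearMap.baseChange B π) using 2
  rw [LinearMap.baseChange_comp, LinearMap.comp_apply]
  rw [show LinearMap.baseChange B (∑ j, (μ j).comp ((c j).restrictScalars A)) =
    ∑ j, LinearMap.baseChange B ((μ j).comp ((c j).restrictScalars A)) from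
      map_sum (LinearMap.baseChangeHom A B M M) _ _, LinearMap.coe_sum, Finset.sum_apply]
  refine Finset.sum_eq_zero fun j _ => ?_
  rw [LinearMap.baseChange_comp, LinearMap.comp_apply, ← LinearMap.comp_apply
    (f := LinearMap.baseChange B ((c j).restrictScalars A)), ← LinearMap.baseChange_comp, h0 j,
    map_zero]

/-- The sections of the base change are the base change of the sections. -/
def CurveDatum.kerModEquiv {M : D.Sub A} (hM : IsUnit M) {n : ℤ} (h : D.Surj M n) :
    (B ⊗[A] D.kerMod M n) ≃ₗ[B] D.kerMod (D.bc (IsScalarTower.toAlgHom k A B) M) n :=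
  (LinearEquiv.ofInjective _ (D.injective_cmpMap B hM h)).trans
    (LinearEquiv.ofEq _ _ (D.range_cmpMap B h))

end FermatAgent.Jacobian
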